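import Fermat.Agent.PrimeRestriction.Kernel
import Mathlib.Analysis.MeanInequalitiesPow

/-!
# The large values

If `|∑_{n ≤ N} a n √(Λ n) e (n h / N)|` is at least `δ √(N ‖a‖²)` at `R` points `h`, with `δ` not
below a given power of `1 / log N`, then `R ^ (k - 1) δ ^ (2 k + 1)` is bounded, for each `k`.
-/

set_option autoImplicit false

noncomputable section

namespace FA.PrimeRestriction

open Finset ArithmeticFunction
open FA.ThreePrimes (eAdd twist)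
open scoped Real ComplexConjugate

/-- The weighted sum on the grid. -/
def restrictSum (N : ℕ) (a : ℕ → ℂ) (h : ℕ) : ℂ :=
  ∑ n ∈ Icc 1 N, a n * (√(Λ n) : ℝ) * eAdd ((n : ℝ) * h / N)

/-- `∑ |a n| ^ 2`. -/
def energy (N : ℕ) (a : ℕ → ℂ) : ℝ := ∑ n ∈ Icc 1 N, ‖a n‖ ^ 2

theorem energy_nonneg (N : ℕ) (a : ℕ → ℂ) : 0 ≤ energy N a := sum_nonneg fun _ _ => sq_nonneg _

/-- `|restrictSum| ^ 2 ≤ 6 N ‖a‖²`. -/
theorem norm_restrictSum_sq_le (N : ℕ) (a : ℕ → ℂ) (h : ℕ) :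
    ‖restrictSum N a h‖ ^ 2 ≤ 6 * N * energy N a := by
  refine (pow_le_pow_left₀ (norm_nonneg _) (norm_sum_le _ _) 2).trans ?_
  simp only [norm_mul, ThreePrimes.norm_eAdd, mul_one, Complex.norm_real, Real.norm_eq_abs,
    abs_of_nonneg (Real.sqrt_nonneg _)]
  refine (sum_mul_sq_le_sq_mul_sq _ _ _).trans ?_
  rw [mul_comm (6 * (N : ℝ)), energy]
  refine mul_le_mul_of_nonneg_left ?_ (sum_nonneg fun _ _ => sq_nonneg _)
  simp only [Real.sq_sqrt vonMangoldt_nonneg]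
  exact ThreePrimes.sum_vonMangoldt_le N

/-- **Duality.** -/
theorem sq_sum_norm_le (N : ℕ) (a : ℕ → ℂ) (H : Finset ℕ) :
    (∑ h ∈ H, ‖restrictSum N a h‖) ^ 2 ≤
      energy N a * ∑ h ∈ H, ∑ k ∈ H, ‖twist (((h : ℝ) - k) / N) Λ N‖ := by
  obtain ⟨c, hc⟩ : ∃ c : ℕ → ℂ,
      c = fun h => conj (restrictSum N a h) / (‖restrictSum N a h‖ : ℂ) := ⟨_, rfl⟩
  have hc1 : ∀ h, ‖c h‖ ≤ 1 := fun h => by
    rw [hc]
    simp only [norm_div, Complex.norm_conj, Complex.norm_real, norm_norm]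
    exact div_self_le_one _
  have hcf : ∀ h, c h * restrictSum N a h = (‖restrictSum N a h‖ : ℂ) := fun h => by
    rw [hc]
    simp only
    rw [div_mul_eq_mul_div, Complex.conj_mul', sq]
    exact mul_self_div_self _
  obtain ⟨S, hS⟩ : ∃ S : ℕ → ℂ,
      S = fun n : ℕ => ∑ h ∈ H, c h * eAdd ((n : ℝ) * h / N) := ⟨_, rfl⟩
  have hF : ∑ h ∈ H, ‖restrictSum N a h‖ ≤ ∑ n ∈ Icc 1 N, ‖a n‖ * (√(Λ n) * ‖S n‖) := by
    refine le_trans (le_of_eq (Complex.norm_of_nonneg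
      (sum_nonneg fun h _ => norm_nonneg (restrictSum N a h))).symm) ?_
    have e : ((∑ h ∈ H, ‖restrictSum N a h‖ : ℝ) : ℂ) =
        ∑ n ∈ Icc 1 N, a n * (√(Λ n) : ℝ) * S n := by
      rw [Complex.ofReal_sum, sum_congr rfl fun h _ => (hcf h).symm]
      simp only [restrictSum, hS, mul_sum]
      rw [sum_comm]
      exact sum_congr rfl fun n _ => sum_congr rfl fun h _ => by ring
    rw [e]
    refine (norm_sum_le _ _).trans (le_of_eq (sum_congr rfl fun n _ => ?_))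
    rw [norm_mul, norm_mul, Complex.norm_real, Real.norm_eq_abs,
      abs_of_nonneg (Real.sqrt_nonneg _), mul_assoc]
  refine (pow_le_pow_left₀ (sum_nonneg fun _ _ => norm_nonneg _) hF 2).trans
    ((sum_mul_sq_le_sq_mul_sq _ _ _).trans (mul_le_mul_of_nonneg_left ?_ (energy_nonneg N a)))
  simp only [mul_pow, Real.sq_sqrt vonMangoldt_nonneg]
  have e : ((∑ n ∈ Icc 1 N, Λ n * ‖S n‖ ^ 2 : ℝ) : ℂ) =
      ∑ h ∈ H, ∑ k ∈ H, c h * conj (c k) * twist (((h : ℝ) - k) / N) Λ N := by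
    rw [Complex.ofReal_sum]
    simp only [ThreePrimes.twist, show Ioc 0 N = Icc 1 N from rfl, mul_sum]
    rw [sum_congr rfl fun h _ => sum_comm (s := H) (t := Icc 1 N), sum_comm]
    refine sum_congr rfl fun n _ => ?_
    rw [Complex.ofReal_mul, Complex.ofReal_pow, ← Complex.mul_conj', hS]
    simp only [map_sum, sum_mul_sum]
    rw [mul_sum]
    refine sum_congr rfl fun h _ => ?_
    rw [mul_sum]
    refine sum_congr rfl fun k _ => ?_
    rw [map_mul, show (n : ℝ) * (((h : ℝ) - k) / N) = (n : ℝ) * h / N - (n : ℝ) * k / N by ring,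
      eAdd_sub]
    ring
  refine le_trans (le_of_eq (Complex.norm_of_nonneg (sum_nonneg fun n _ =>
    mul_nonneg vonMangoldt_nonneg (sq_nonneg ‖S n‖))).symm) ?_
  rw [e]
  refine (norm_sum_le _ _).trans (sum_le_sum fun h _ => (norm_sum_le _ _).trans
    (sum_le_sum fun k _ => ?_))
  rw [norm_mul, norm_mul, Complex.norm_conj]
  exact mul_le_of_le_one_left (norm_nonneg _) (mul_le_one₀ (hc1 h) (norm_nonneg _) (hc1 k))

/-- **The kernel on all the pairs.** -/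
theorem sum_arcKernel_le {N U J : ℕ} (hJ : 2 ^ (J + 4) ≤ N) (H : Finset ℕ) {Φ : ℝ}
    (hΦ : ∀ q ∈ Icc 1 U, (q : ℝ) / q.totient ≤ Φ) :
    ∑ h ∈ H, ∑ k ∈ H, arcKernel N U J (((h : ℝ) - k) / N) ≤
      256 * (J + 1) * Φ / N * ((U : ℝ) * (H.card : ℝ) ^ 2 +
        ∑ m ∈ Ioc 0 N, (truncDivisors U m : ℝ) * gridNorm N H m) := by
  obtain ⟨T, hT⟩ : ∃ T : ℕ → ℝ, T = fun q => (H.card : ℝ) ^ 2 +
      2 * ∑ m ∈ (Ioc 0 N).filter (fun m => q ∣ m), gridNorm N H m := ⟨_, rfl⟩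
  have hT0 : ∀ q, 0 ≤ T q := fun q => by
    rw [hT]
    exact add_nonneg (sq_nonneg _) (mul_nonneg two_pos.le (sum_nonneg fun _ _ => sq_nonneg _))
  have hN0 : (0 : ℝ) < N := Nat.cast_pos.2 (lt_of_lt_of_le (by positivity) hJ)
  have hq : ∀ q ∈ Icc 1 U, ∑ h ∈ H, ∑ k ∈ H, (q.totient : ℝ)⁻¹ * ∑ j ∈ range (J + 1),
      (1 / 2) ^ j * (4 * ∑ a ∈ range q, fejer (N / 2 ^ (j + 4))
        (((h : ℝ) - k) / N - (a : ℝ) / q)) ≤ 128 * (J + 1) * Φ / N * T q := by
    intro q hq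
    have hΦ0 : 0 ≤ Φ := le_trans (by positivity) (hΦ q hq)
    simp only [mul_sum]
    rw [sum_congr rfl fun h _ => sum_comm, sum_comm]
    simp only [← mul_sum]
    refine (mul_le_mul_of_nonneg_left (sum_le_card_nsmul _ _ (128 * (q : ℝ) / N * T q)
      fun j hj => ?_) (by positivity)).trans ?_
    · rw [mem_range] at hj
      have hp : 2 ^ (j + 4) ≤ N := (Nat.pow_le_pow_right two_pos (by omega)).trans hJ
      obtain ⟨M, hM⟩ : ∃ M, M = N / 2 ^ (j + 4) := ⟨_, rfl⟩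
      have hM0 : 0 < M := hM ▸ Nat.div_pos hp (by positivity)
      rw [← hM]
      have h1 := sum_fejer_le (mem_Icc.1 hq).1 hM0 (hM ▸ Nat.div_le_self _ _) H (N := N)
      refine (mul_le_mul_of_nonneg_left (mul_le_mul_of_nonneg_left h1 (by norm_num : (0 : ℝ) ≤ 4))
        (by positivity)).trans ?_
      rw [show (H.card : ℝ) ^ 2 + 2 * ∑ m ∈ (Ioc 0 N).filter (fun m => q ∣ m),
        gridNorm N H m = T q by rw [hT], ← mul_assoc, ← mul_assoc]
      refine mul_le_mul_of_nonneg_right ?_ (hT0 q)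
      have h2 : (N : ℝ) ≤ 2 ^ (j + 5) * (M : ℝ) := by
        have h3 := Nat.lt_mul_div_succ N (show 0 < 2 ^ (j + 4) by positivity)
        rw [← hM] at h3
        exact_mod_cast (show N ≤ 2 ^ (j + 5) * M by
          rw [pow_succ 2 (j + 4)]
          have : 2 ^ (j + 4) * (M + 1) ≤ 2 ^ (j + 4) * (2 * M) := Nat.mul_le_mul_left _ (by omega)
          linarith)
      rw [one_div_pow, one_div, mul_div_assoc', div_le_div_iff₀ (Nat.cast_pos.2 hM0) hN0]
      refine (mul_le_mul_of_nonneg_left h2 (by positivity)).trans (le_of_eq ?_)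
      rw [pow_add]
      field_simp
      ring
    · rw [card_range, nsmul_eq_mul]
      push_cast
      calc (q.totient : ℝ)⁻¹ * (((J : ℝ) + 1) * (128 * q / N * T q))
          = (q : ℝ) / q.totient * (128 * (J + 1) / N * T q) := by ring
        _ ≤ Φ * (128 * (J + 1) / N * T q) := mul_le_mul_of_nonneg_right (hΦ q hq)
            (mul_nonneg (by positivity) (hT0 q))
        _ = _ := by ring
  simp only [arcKernel]
  rw [sum_congr rfl fun h _ => sum_comm, sum_comm]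
  refine (sum_le_sum hq).trans ?_
  rw [← mul_sum]
  rcases Nat.eq_zero_or_pos U with rfl | hU
  · simp [truncDivisors]
  have hΦ0 : 0 ≤ Φ := le_trans (by positivity) (hΦ 1 (mem_Icc.2 ⟨le_rfl, hU⟩))
  rw [show 256 * ((J : ℝ) + 1) * Φ / N = 128 * (J + 1) * Φ / N * 2 by ring, mul_assoc _ (2 : ℝ)]
  refine mul_le_mul_of_nonneg_left ?_ (by positivity)
  have e : ∑ m ∈ Ioc 0 N, (truncDivisors U m : ℝ) * gridNorm N H m =
      ∑ q ∈ Icc 1 U, ∑ m ∈ (Ioc 0 N).filter (fun m => q ∣ m), gridNorm N H m := by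
    simp only [sum_filter]
    rw [sum_comm]
    refine sum_congr rfl fun m _ => ?_
    rw [← sum_filter, sum_const, nsmul_eq_mul, truncDivisors]
  rw [hT, e, sum_add_distrib, ← mul_sum, sum_const, Nat.card_Icc, Nat.add_sub_cancel,
    nsmul_eq_mul, mul_add]
  have : 0 ≤ (U : ℝ) * (H.card : ℝ) ^ 2 := by positivity
  linarith

/-- Hölder against the moments of `d_U`. -/
theorem exists_weighted_moment_le (k : ℕ) {η : ℝ} (hη : 0 < η) : ∃ C : ℝ, 0 < C ∧
    ∀ U N : ℕ, 1 ≤ U → 0 < N → ∀ H : Finset ℕ, H ⊆ range N →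
      (∑ m ∈ Ioc 0 N, (truncDivisors U m : ℝ) * gridNorm N H m) ^ (k + 1) ≤
        C * (U : ℝ) ^ η * (N : ℝ) ^ (k + 1) * (H.card : ℝ) ^ (k + 2) := by
  obtain ⟨C, hC, h⟩ := exists_moment_le (k + 1) η hη
  refine ⟨C, hC, fun U N hU hN H hH => ?_⟩
  rcases H.eq_empty_or_nonempty with rfl | hne
  · simp [gridNorm]
  obtain ⟨W, hW⟩ : ∃ W : ℝ, W = N * H.card := ⟨_, rfl⟩
  have hW0 : 0 < W := hW ▸ mul_pos (Nat.cast_pos.2 hN) (Nat.cast_pos.2 hne.card_pos)
  have h1 := Real.pow_arith_mean_le_arith_mean_pow (Ioc 0 N) (fun m => gridNorm N H m / W)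
    (fun m => (truncDivisors U m : ℝ)) (fun m _ => div_nonneg (sq_nonneg _) hW0.le)
    (by rw [← sum_div, sum_gridNorm hN hH, ← hW, div_self hW0.ne'])
    (fun m _ => Nat.cast_nonneg _) (k + 1)
  simp only [div_mul_eq_mul_div, ← sum_div] at h1
  rw [div_pow, div_le_iff₀ (by positivity)] at h1
  simp only [mul_comm (gridNorm N H _)] at h1
  refine h1.trans ?_
  refine (mul_le_mul_of_nonneg_right (div_le_div_of_nonneg_right
    (sum_le_sum fun m _ => mul_le_mul_of_nonneg_left (gridNorm_le N H m) (by positivity)) hW0.le)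
    (by positivity)).trans ?_
  rw [← sum_mul, pow_succ W, ← mul_assoc, mul_right_comm _ (W ^ k) W,
    div_mul_cancel₀ _ hW0.ne']
  refine (mul_le_mul_of_nonneg_right (mul_le_mul_of_nonneg_right (h U hU N) (by positivity))
    (by positivity)).trans (le_of_eq ?_)
  rw [hW, mul_pow]
  ring

/-- **The large values.** -/
theorem exists_large_values (A : ℕ) {k : ℕ} (hk : 1 ≤ k) : ∃ C : ℝ, 0 < C ∧
    ∀ N : ℕ, 3 ≤ N → ∀ a : ℕ → ℂ, 0 < energy N a → ∀ δ : ℝ, 0 < δ → δ ≤ 3 →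
      1 / Real.log N ^ A ≤ δ → ∀ H : Finset ℕ, H ⊆ range N →
      (∀ h ∈ H, δ ^ 2 * (N * energy N a) ≤ ‖restrictSum N a h‖ ^ 2) →
      (H.card : ℝ) ^ k * δ ^ (2 * k + 3) ≤ C := by
  obtain ⟨η, hη⟩ : ∃ η : ℝ, η = 1 / (4 * (2 * k + 3)) := ⟨_, rfl⟩
  have hη0 : 0 < η := by rw [hη]; positivity
  obtain ⟨C₁, hC₁, htw⟩ := exists_twist_le (3 * A + 3)
  obtain ⟨C₂, hC₂, hmom⟩ := exists_weighted_moment_le k hη0
  obtain ⟨C₃, hC₃, hphi⟩ := exists_div_totient_le hη0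
  obtain ⟨K, hK⟩ : ∃ K : ℝ, K = 256 * (4 + 4 / η) * C₃ := ⟨_, rfl⟩
  have hK0 : 0 < K := by rw [hK]; positivity
  obtain ⟨K₁, hK₁, hpow⟩ := ThreePrimes.exists_log_pow_le (10 * A + 2 * (3 * A + 3 + 4))
  obtain ⟨G, hG⟩ : ∃ G : ℝ, G = max (max (4 * K * 2 ^ 18) 16384) 1 := ⟨_, rfl⟩
  obtain ⟨T, hT⟩ : ∃ T : ℕ, T = max ⌈Real.exp (8 * C₁ + 1)⌉₊ ⌈(G * K₁) ^ 2⌉₊ := ⟨_, rfl⟩
  refine ⟨max ((T : ℝ) ^ k * 3 ^ (2 * k + 3)) (5 * ((2 * K) ^ (k + 1) * C₂)),
    lt_max_of_lt_right (by positivity), fun N hN a hB δ hδ0 hδ3 hδ H hH hlarge => ?_⟩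
  rcases Nat.lt_or_ge N T with hsmall | hbig
  · refine le_trans ?_ (le_max_left _ _)
    refine mul_le_mul (pow_le_pow_left₀ (Nat.cast_nonneg _) (Nat.cast_le.2 ?_) k)
      (pow_le_pow_left₀ hδ0.le hδ3 _) (by positivity) (by positivity)
    exact (card_le_card hH).trans ((card_range N).le.trans hsmall.le)
  refine le_trans ?_ (le_max_right _ _)
  rw [hT] at hbig
  simp only [max_le_iff] at hbig
  have hN0 : (0 : ℝ) < N := Nat.cast_pos.2 (by omega)
  obtain ⟨l, hl⟩ : ∃ l, l = Real.log N := ⟨_, rfl⟩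
  have hlC : 8 * C₁ + 1 ≤ l := by
    rw [hl, Real.le_log_iff_exp_le hN0]
    exact (Nat.le_ceil _).trans (Nat.cast_le.2 hbig.1)
  have hl1 : 1 ≤ l := by linarith
  have hl0 : 0 < l := by linarith
  have hG1 : 1 ≤ G := hG ▸ le_max_right _ _
  have hlN : G * l ^ (10 * A + 2 * (3 * A + 3 + 4)) ≤ N := by
    refine (mul_le_mul_of_nonneg_left (hl ▸ hpow N (by exact_mod_cast (show 1 ≤ N by omega)))
      (by linarith)).trans ?_
    rw [← mul_assoc]
    refine (mul_le_mul_of_nonneg_right (Real.le_sqrt_of_sq_le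
      ((Nat.le_ceil _).trans (Nat.cast_le.2 hbig.2))) (Real.sqrt_nonneg _)).trans
        (le_of_eq (Real.mul_self_sqrt hN0.le))
  rw [← hl] at hδ
  rw [div_le_iff₀ (by positivity)] at hδ
  -- the parameters
  obtain ⟨U, hU⟩ : ∃ U, U = ⌈256 / δ ^ 4⌉₊ := ⟨_, rfl⟩
  have hd4 : δ ^ 4 ≤ 81 := le_trans (pow_le_pow_left₀ hδ0.le hδ3 4) (by norm_num)
  have hUlo : 256 / δ ^ 4 ≤ U := hU ▸ Nat.le_ceil _
  have h256 : 1 ≤ 256 / δ ^ 4 := by
    rw [one_le_div (by positivity)]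
    linarith
  have hUhi : (U : ℝ) * δ ^ 4 ≤ 512 := by
    have h1 := (Nat.ceil_lt_add_one (show 0 ≤ 256 / δ ^ 4 by positivity)).le
    rw [← hU] at h1
    have h2 : (U : ℝ) ≤ 512 / δ ^ 4 := h1.trans (by
      rw [show (512 : ℝ) / δ ^ 4 = 256 / δ ^ 4 + 256 / δ ^ 4 by ring]
      linarith)
    rwa [le_div_iff₀ (by positivity)] at h2
  have hU1 : (1 : ℝ) ≤ U := h256.trans hUlo
  have hU1' : 1 ≤ U := by exact_mod_cast hU1
  have hUl : (U : ℝ) ≤ 512 * l ^ (4 * A) := by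
    calc (U : ℝ) = U * 1 := (mul_one _).symm
      _ ≤ U * (δ * l ^ A) ^ 4 := mul_le_mul_of_nonneg_left (one_le_pow₀ hδ) (by linarith)
      _ = (U : ℝ) * δ ^ 4 * l ^ (4 * A) := by rw [mul_pow, ← pow_mul, mul_comm A 4]; ring
      _ ≤ _ := mul_le_mul_of_nonneg_right hUhi (by positivity)
  obtain ⟨J, hJ⟩ : ∃ J, J = Nat.log 2 U + 1 := ⟨_, rfl⟩
  have hUJ : U ≤ 2 ^ J := hJ ▸ (Nat.lt_pow_succ_log_self one_lt_two U).le
  have h2J : 2 ^ J ≤ 2 * U := by
    rw [hJ, pow_succ, mul_comm]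
    exact Nat.mul_le_mul_left 2 (Nat.pow_log_le_self 2 (by omega))
  have hJN : 2 ^ (J + 4) ≤ N := by
    have h1 : 2 ^ (J + 4) ≤ 32 * U := by rw [pow_add]; omega
    refine h1.trans ?_
    have h2 : (32 : ℝ) * U ≤ N := by
      refine le_trans ?_ hlN
      calc (32 : ℝ) * U ≤ 32 * (512 * l ^ (4 * A)) :=
            mul_le_mul_of_nonneg_left hUl (by norm_num)
        _ = 16384 * l ^ (4 * A) := by ring
        _ ≤ _ := mul_le_mul (hG ▸ le_trans (le_max_right _ _) (le_max_left _ _))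
            (pow_le_pow_right₀ hl1 (by omega)) (by positivity) (by linarith)
    exact_mod_cast h2
  obtain ⟨V, hV⟩ : ∃ V : ℝ, V = (U : ℝ) ^ η := ⟨_, rfl⟩
  have hV1 : 1 ≤ V := hV ▸ Real.one_le_rpow hU1 hη0.le
  have hJV : (J : ℝ) + 1 ≤ (4 + 4 / η) * V := by
    have h1 := Real.log_le_log (by positivity)
      (show ((2 : ℝ) ^ J) ≤ 2 * U by exact_mod_cast h2J)
    rw [Real.log_pow, Real.log_mul two_ne_zero (by linarith)] at h1
    have h2 := Real.log_le_rpow_div (Nat.cast_nonneg (α := ℝ) U) hη0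
    rw [← hV] at h2
    have h3 := Real.log_two_gt_d9
    have h4 := Real.log_two_lt_d9
    have h5 : (J : ℝ) / 2 ≤ (J : ℝ) * Real.log 2 := by
      rw [div_eq_mul_inv]
      exact mul_le_mul_of_nonneg_left (by norm_num; linarith) (Nat.cast_nonneg J)
    rw [add_mul, div_mul_eq_mul_div]
    have h6 : 4 * V / η = 4 * (V / η) := by ring
    have h7 : 0 ≤ V / η := by positivity
    rw [h6]
    linarith
  have hphi' : ∀ q ∈ Icc 1 U, (q : ℝ) / q.totient ≤ C₃ * V := fun q hq =>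
    hV ▸ hphi q U (mem_Icc.1 hq).1 (mem_Icc.1 hq).2
  -- the pairs
  obtain ⟨R, hR⟩ : ∃ R : ℝ, R = H.card := ⟨_, rfl⟩
  have hR0 : 0 ≤ R := hR ▸ Nat.cast_nonneg _
  obtain ⟨X, hX⟩ : ∃ X, X = ∑ m ∈ Ioc 0 N, (truncDivisors U m : ℝ) * gridNorm N H m := ⟨_, rfl⟩
  have hX0 : 0 ≤ X := hX ▸ sum_nonneg fun m _ => mul_nonneg (Nat.cast_nonneg _) (sq_nonneg _)
  have hmain : δ ^ 2 * R ^ 2 ≤
      (δ ^ 2 / 4) * R ^ 2 + K * V ^ 2 / N * ((U : ℝ) * R ^ 2 + X) := by
    have hlow : δ ^ 2 * R ^ 2 * (N * energy N a) ≤ (∑ h ∈ H, ‖restrictSum N a h‖) ^ 2 := by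
      have h1 : R * √(δ ^ 2 * (N * energy N a)) ≤ ∑ h ∈ H, ‖restrictSum N a h‖ := by
        rw [hR, ← nsmul_eq_mul, ← sum_const]
        refine sum_le_sum fun h hh => ?_
        rw [Real.sqrt_le_left (norm_nonneg _)]
        exact hlarge h hh
      refine le_trans (le_of_eq ?_) (pow_le_pow_left₀ (by positivity) h1 2)
      rw [mul_pow, Real.sq_sqrt (by positivity)]
      ring
    have hpt : ∀ α : ℝ, ‖twist α Λ N‖ ≤ N * (δ ^ 2 / 4 + arcKernel N U J α) := by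
      intro α
      refine (htw N U J (hl ▸ hl1) ?_ hU1' hUJ hJN α).trans ?_
      · rw [← hl]
        refine le_trans ?_ hlN
        exact (pow_le_pow_right₀ hl1 (by omega)).trans
          (le_mul_of_one_le_left (by positivity) hG1)
      refine mul_le_mul_of_nonneg_left (add_le_add ?_ le_rfl) hN0.le
      have h1 : 2 / √(U : ℝ) ≤ δ ^ 2 / 8 := by
        have h2 : 16 / δ ^ 2 ≤ √(U : ℝ) := by
          refine Real.le_sqrt_of_sq_le (le_trans (le_of_eq ?_) hUlo)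
          ring
        rw [div_le_iff₀ (by positivity)] at h2
        rw [div_le_div_iff₀ (by positivity) (by norm_num)]
        linarith
      have h2 : C₁ / Real.log N ^ (3 * A + 3) ≤ δ ^ 2 / 8 := by
        rw [← hl, div_le_div_iff₀ (by positivity) (by norm_num)]
        calc C₁ * 8 ≤ 1 * l := by linarith
          _ ≤ (δ * l ^ A) ^ 2 * l ^ (A + 3) :=
              mul_le_mul (one_le_pow₀ hδ) (le_self_pow₀ hl1 (by omega)) hl0.le (by positivity)
          _ = _ := by ring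
      linarith
    refine le_of_mul_le_mul_right (hlow.trans ((sq_sum_norm_le N a H).trans ?_))
      (mul_pos hN0 hB)
    rw [mul_comm (energy N a), ← mul_assoc]
    refine mul_le_mul_of_nonneg_right ?_ hB.le
    refine (sum_le_sum fun h _ => sum_le_sum fun k _ => hpt _).trans ?_
    simp only [← mul_sum, sum_add_distrib, sum_const, nsmul_eq_mul, ← hR]
    rw [mul_comm (δ ^ 2 / 4 * R ^ 2 + _)]
    refine mul_le_mul_of_nonneg_left (add_le_add (le_of_eq (by ring)) ?_) hN0.le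
    refine (sum_arcKernel_le hJN H hphi').trans ?_
    rw [← hR, ← hX]
    refine mul_le_mul_of_nonneg_right (div_le_div_of_nonneg_right ?_ hN0.le) (by positivity)
    rw [hK]
    calc 256 * ((J : ℝ) + 1) * (C₃ * V) ≤ 256 * ((4 + 4 / η) * V) * (C₃ * V) := by gcongr
      _ = _ := by ring
  have hUterm : K * V ^ 2 / N * ((U : ℝ) * R ^ 2) ≤ δ ^ 2 / 4 * R ^ 2 := by
    rw [← mul_assoc]
    refine mul_le_mul_of_nonneg_right ?_ (sq_nonneg R)
    have hVU : V ^ 2 ≤ U := by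
      rw [hV, ← Real.rpow_natCast, ← Real.rpow_mul (by linarith)]
      refine Real.rpow_le_self_of_one_le hU1 ?_
      rw [hη]
      push_cast
      rw [div_mul_eq_mul_div, div_le_one (by positivity)]
      linarith [(Nat.cast_nonneg k : (0 : ℝ) ≤ k)]
    rw [div_mul_eq_mul_div, div_le_iff₀ hN0]
    calc K * V ^ 2 * U ≤ K * U * U := by gcongr
      _ ≤ K * (512 * l ^ (4 * A)) * (512 * l ^ (4 * A)) := by gcongr
      _ = (4 * K * 2 ^ 18 / 4 * l ^ (8 * A)) * 1 := by ring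
      _ ≤ (G / 4 * l ^ (8 * A)) * (δ * l ^ A) ^ 2 := by
          refine mul_le_mul (mul_le_mul_of_nonneg_right (div_le_div_of_nonneg_right
            (hG ▸ le_trans (le_max_left _ _) (le_max_left _ _)) (by norm_num)) (by positivity))
            (one_le_pow₀ hδ) zero_le_one (by positivity)
      _ = δ ^ 2 / 4 * (G * l ^ (10 * A)) := by ring
      _ ≤ _ := by
          refine mul_le_mul_of_nonneg_left (le_trans ?_ hlN) (by positivity)
          exact mul_le_mul_of_nonneg_left (pow_le_pow_right₀ hl1 (by omega)) (by linarith)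
  have hkey : δ ^ 2 * R ^ 2 ≤ 2 * K * V ^ 2 * (X / N) := by
    rw [mul_add] at hmain
    have : K * V ^ 2 / N * X = K * V ^ 2 * (X / N) := by ring
    linarith
  have hpk := (pow_le_pow_left₀ (by positivity) hkey (k + 1)).trans_eq
    (show (2 * K * V ^ 2 * (X / N)) ^ (k + 1) =
      (2 * K) ^ (k + 1) * V ^ (2 * (k + 1)) * (X ^ (k + 1) / (N : ℝ) ^ (k + 1)) by
        rw [mul_pow, mul_pow, div_pow, pow_mul])
  have hXk : X ^ (k + 1) / (N : ℝ) ^ (k + 1) ≤ C₂ * V * R ^ (k + 2) := by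
    rw [div_le_iff₀ (by positivity), hV, hR, hX, mul_right_comm]
    exact hmom U N hU1' (by omega) H hH
  rcases hR0.eq_or_lt with h | h
  · rw [← hR, ← h, zero_pow (by omega), zero_mul]
    positivity
  have hVδ : V ^ (2 * k + 3) * δ ≤ 5 := by
    refine le_of_pow_le_pow_left₀ (show 4 ≠ 0 by norm_num) (by norm_num) ?_
    rw [mul_pow, hV, ← Real.rpow_natCast ((U : ℝ) ^ η), ← Real.rpow_mul (by linarith),
      ← Real.rpow_natCast (((U : ℝ) ^ (η * ((2 * k + 3 : ℕ) : ℝ)))),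
      ← Real.rpow_mul (by linarith)]
    have e : η * ((2 * k + 3 : ℕ) : ℝ) * ((4 : ℕ) : ℝ) = 1 := by
      rw [hη]
      push_cast
      field_simp
    rw [e, Real.rpow_one]
    linarith
  rw [← hR]
  refine le_of_mul_le_mul_left ?_ (pow_pos h (k + 2))
  calc R ^ (k + 2) * (R ^ k * δ ^ (2 * k + 3)) = (δ ^ 2 * R ^ 2) ^ (k + 1) * δ := by ring
    _ ≤ (2 * K) ^ (k + 1) * V ^ (2 * (k + 1)) * (C₂ * V * R ^ (k + 2)) * δ :=
        mul_le_mul_of_nonneg_right (hpk.trans (mul_le_mul_of_nonneg_left hXk (by positivity)))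
          hδ0.le
    _ = (2 * K) ^ (k + 1) * C₂ * R ^ (k + 2) * (V ^ (2 * k + 3) * δ) := by ring
    _ ≤ (2 * K) ^ (k + 1) * C₂ * R ^ (k + 2) * 5 :=
        mul_le_mul_of_nonneg_left hVδ (by positivity)
    _ = _ := by ring

end FA.PrimeRestriction
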