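import Fermat.Agent.PrimeRestriction.LargeValues
import Mathlib.MeasureTheory.Integral.IntervalIntegral.Basic

/-!
# Bourgain's restriction theorem for the primes

Summing the bound for the large values over dyadic ranges gives, for every `p > 2`, that the `p`-th
moment of `∑_{n ≤ N} a n √(Λ n) e (n h / N)` is `O ((N ‖a‖²) ^ (p / 2))`; the prime numbers follow.
-/

set_option autoImplicit false

noncomputable section

namespace FA.PrimeRestriction

open Finset ArithmeticFunction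
open FA.ThreePrimes (eAdd)
open scoped Real ComplexConjugate

/-- **Orthogonality on the full grid.** -/
theorem sum_norm_sq_full {N : ℕ} (hN : 0 < N) (c : ℕ → ℂ) :
    ∑ h ∈ range N, ‖∑ n ∈ Icc 1 N, c n * eAdd ((n : ℝ) * h / N)‖ ^ 2 =
      N * ∑ n ∈ Icc 1 N, ‖c n‖ ^ 2 := by
  have hshift : ∀ {α : Type} [AddCommMonoid α] (F : ℕ → α),
      ∑ n ∈ Icc 1 N, F n = ∑ m ∈ range N, F (m + 1) := fun F => by
    rw [show Icc 1 N = Ico 1 (N + 1) from rfl, sum_Ico_eq_sum_range, Nat.add_sub_cancel]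
    simp only [add_comm]
  rw [hshift fun n => ‖c n‖ ^ 2]
  have h := AlmostGoldbach.sum_norm_sq_coeff hN (range N) subset_rfl fun m => conj (c (m + 1))
  simp only [Complex.norm_conj] at h
  rw [← h]
  refine sum_congr rfl fun x _ => ?_
  rw [hshift fun n => c n * eAdd ((n : ℝ) * x / N)]
  refine congrArg (fun y : ℝ => y ^ 2) ?_
  rw [← Complex.norm_conj, map_sum, ← one_mul ‖∑ m ∈ range N, _‖,
    ← ThreePrimes.norm_eAdd ((x : ℝ) / N), ← norm_mul, mul_sum]
  refine congrArg _ (sum_congr rfl fun m _ => ?_)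
  rw [map_mul, ThreePrimes.conj_eAdd, mul_left_comm, ← ThreePrimes.eAdd_add]
  push_cast
  ring_nf

theorem sum_restrictSum_sq_le {N : ℕ} (hN : 0 < N) (a : ℕ → ℂ) :
    ∑ h ∈ range N, ‖restrictSum N a h‖ ^ 2 ≤ N * (energy N a * Real.log N) := by
  refine (le_of_eq (sum_norm_sq_full hN fun n => a n * (√(Λ n) : ℝ))).trans
    (mul_le_mul_of_nonneg_left ?_ (Nat.cast_nonneg N))
  rw [energy, sum_mul]
  refine sum_le_sum fun n hn => ?_
  rw [mem_Icc] at hn
  rw [norm_mul, mul_pow, Complex.norm_real, Real.norm_eq_abs, sq_abs,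
    Real.sq_sqrt vonMangoldt_nonneg]
  exact mul_le_mul_of_nonneg_left (vonMangoldt_le_log.trans
    (Real.log_le_log (Nat.cast_pos.2 hn.1) (Nat.cast_le.2 hn.2))) (sq_nonneg _)

/-- **The restriction estimate on the grid.** -/
theorem exists_grid_restriction {p : ℝ} (hp : 2 < p) : ∃ C : ℝ, 0 < C ∧
    ∀ N : ℕ, 1 ≤ N → ∀ a : ℕ → ℂ,
      ∑ h ∈ range N, ‖restrictSum N a h‖ ^ p ≤ C * (N * energy N a) ^ (p / 2) := by
  classical
  obtain ⟨k, hk⟩ : ∃ k : ℕ, k = ⌊3 / (p - 2)⌋₊ + 1 := ⟨_, rfl⟩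
  obtain ⟨A, hA⟩ : ∃ A : ℕ, A = ⌈1 / (p - 2)⌉₊ := ⟨_, rfl⟩
  have hk0 : 1 ≤ k := by omega
  have hkR : (0 : ℝ) < k := Nat.cast_pos.2 hk0
  obtain ⟨γ, hγ⟩ : ∃ γ : ℝ, γ = ((2 * k + 3 : ℕ) : ℝ) / k := ⟨_, rfl⟩
  have hγ0 : 0 ≤ γ := hγ ▸ by positivity
  have hγp : γ < p := by
    rw [hγ, div_lt_iff₀ hkR]
    have h1 := Nat.lt_floor_add_one (3 / (p - 2))
    rw [div_lt_iff₀ (by linarith)] at h1
    rw [hk]
    push_cast at h1 ⊢
    linarith
  obtain ⟨C, hC, hlarge⟩ := exists_large_values A hk0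
  obtain ⟨C', hC'⟩ : ∃ C' : ℝ, C' = max C 1 := ⟨_, rfl⟩
  have hC'1 : 1 ≤ C' := hC' ▸ le_max_right _ _
  obtain ⟨ρ, hρ⟩ : ∃ ρ : ℝ, ρ = (1 / 2 : ℝ) ^ (p - γ) := ⟨_, rfl⟩
  have hρ0 : 0 ≤ ρ := hρ ▸ Real.rpow_nonneg (by norm_num) _
  have hρ1 : ρ < 1 := hρ ▸ Real.rpow_lt_one (by norm_num) (by norm_num) (by linarith)
  obtain ⟨D, hD⟩ : ∃ D : ℝ, D = C' * 2 ^ γ * 3 ^ (p - γ) / (1 - ρ) := ⟨_, rfl⟩
  have hD0 : 0 < D := hD ▸ div_pos (by positivity) (by linarith)
  refine ⟨2 * 6 ^ (p / 2) + (1 + D), by positivity, fun N hN a => ?_⟩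
  have hB0 := energy_nonneg N a
  obtain ⟨W, hW⟩ : ∃ W, W = (N : ℝ) * energy N a := ⟨_, rfl⟩
  have hW0 : 0 ≤ W := hW ▸ by positivity
  rw [← hW]
  by_cases hsmall : N < 3 ∨ energy N a = 0
  · have h1 : ∀ h, ‖restrictSum N a h‖ ^ p ≤ 6 ^ (p / 2) * W ^ (p / 2) := fun h => by
      rw [← Real.mul_rpow (by norm_num) hW0,
        show p = ((2 : ℕ) : ℝ) * (p / 2) by push_cast; ring, Real.rpow_mul (norm_nonneg _),
        Real.rpow_natCast, show ((2 : ℕ) : ℝ) * (p / 2) / 2 = p / 2 by push_cast; ring]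
      refine Real.rpow_le_rpow (sq_nonneg _) ((norm_restrictSum_sq_le N a h).trans
        (le_of_eq ?_)) (by linarith)
      rw [hW, mul_assoc]
    refine (sum_le_card_nsmul _ _ _ fun h _ => h1 h).trans ?_
    rw [card_range, nsmul_eq_mul]
    rcases hsmall with h | h
    · rw [add_mul, mul_assoc 2]
      refine le_add_of_le_of_nonneg (mul_le_mul_of_nonneg_right ?_ (by positivity)) (by positivity)
      exact_mod_cast (show N ≤ 2 by omega)
    · rw [hW, h, mul_zero, Real.zero_rpow (by linarith), mul_zero, mul_zero, mul_zero]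
  rw [not_or, not_lt] at hsmall
  have hB : 0 < energy N a := lt_of_le_of_ne hB0 (Ne.symm hsmall.2)
  have hN3 := hsmall.1
  have hN0 : (0 : ℝ) < N := Nat.cast_pos.2 (by omega)
  have hWpos : 0 < W := hW ▸ mul_pos hN0 hB
  refine le_trans ?_ (mul_le_mul_of_nonneg_right (le_add_of_nonneg_left (by positivity))
    (by positivity))
  obtain ⟨x, hx⟩ : ∃ x : ℕ → ℝ, x = fun h => ‖restrictSum N a h‖ / √W := ⟨_, rfl⟩
  have hx0 : ∀ h, 0 ≤ x h := fun h => hx ▸ div_nonneg (norm_nonneg _) (Real.sqrt_nonneg _)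
  have hx3 : ∀ h, x h ≤ 3 := fun h => by
    rw [hx, div_le_iff₀ (Real.sqrt_pos.2 hWpos)]
    refine le_of_pow_le_pow_left₀ two_ne_zero (by positivity)
      ((norm_restrictSum_sq_le N a h).trans ?_)
    rw [mul_pow, Real.sq_sqrt hW0, mul_assoc, ← hW]
    exact mul_le_mul_of_nonneg_right (by norm_num) hW0
  suffices hx' : ∑ h ∈ range N, x h ^ p ≤ 1 + D by
    refine le_trans (le_of_eq ?_) (mul_le_mul_of_nonneg_right hx' (Real.rpow_nonneg hW0 _))
    rw [sum_mul]
    refine sum_congr rfl fun h _ => ?_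
    rw [hx]
    simp only
    rw [Real.div_rpow (norm_nonneg _) (Real.sqrt_nonneg _), Real.sqrt_eq_rpow,
      ← Real.rpow_mul hW0, show (1 / 2 : ℝ) * p = p / 2 by ring,
      div_mul_cancel₀ _ (Real.rpow_pos_of_pos hWpos _).ne']
  obtain ⟨l, hl⟩ : ∃ l, l = Real.log N := ⟨_, rfl⟩
  have hl1 : 1 ≤ l := by
    rw [hl, Real.le_log_iff_exp_le hN0]
    exact Real.exp_one_lt_three.le.trans (by exact_mod_cast hN3)
  obtain ⟨e, he⟩ : ∃ e, e = 1 / l ^ A := ⟨_, rfl⟩
  have he0 : 0 < e := he ▸ by positivity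
  rw [← sum_filter_add_sum_filter_not (range N) (fun h => x h < e)]
  refine add_le_add ?_ ?_
  · refine (sum_le_sum (g := fun h => e ^ (p - 2) * x h ^ 2) fun h hh => ?_).trans ?_
    · rw [mem_filter] at hh
      rw [show p = p - 2 + ((2 : ℕ) : ℝ) by push_cast; ring,
        Real.rpow_add_natCast' (hx0 h) (by push_cast; linarith)]
      push_cast
      rw [sub_add_cancel]
      exact mul_le_mul_of_nonneg_right (Real.rpow_le_rpow (hx0 h) hh.2.le (by linarith))
        (sq_nonneg _)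
    rw [← mul_sum]
    have h2 : ∑ h ∈ (range N).filter (fun h => x h < e), x h ^ 2 ≤ l := by
      refine (sum_le_sum_of_subset_of_nonneg (filter_subset _ _) fun i _ _ => sq_nonneg _).trans ?_
      simp only [hx, div_pow, Real.sq_sqrt hW0, ← sum_div]
      rw [div_le_iff₀ hWpos, hW, hl]
      exact (sum_restrictSum_sq_le (by omega) a).trans (le_of_eq (by ring))
    refine (mul_le_mul_of_nonneg_left h2 (by positivity)).trans ?_
    rw [he, one_div, Real.inv_rpow (by positivity), inv_mul_le_one₀ (by positivity),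
      ← Real.rpow_natCast, ← Real.rpow_mul (by linarith)]
    refine le_trans (le_of_eq (Real.rpow_one l).symm) (Real.rpow_le_rpow_of_exponent_le hl1 ?_)
    have h3 := Nat.le_ceil (1 / (p - 2))
    rw [div_le_iff₀ (by linarith), ← hA] at h3
    exact h3
  obtain ⟨I, hI⟩ := exists_pow_lt_of_lt_one (show 0 < e / 3 by positivity)
    (show (1 / 2 : ℝ) < 1 by norm_num)
  obtain ⟨lev, hlev⟩ : ∃ lev : ℕ → ℝ, lev = fun n => 3 * (1 / 2) ^ (n + 1) := ⟨_, rfl⟩
  obtain ⟨S, hS⟩ : ∃ S : ℕ → Finset ℕ,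
    S = fun n => (range N).filter fun h => lev n ≤ x h ∧ e ≤ x h := ⟨_, rfl⟩
  have hcover : ∀ h ∈ (range N).filter (fun h => ¬ x h < e), x h ^ p ≤
      ∑ n ∈ range I, if h ∈ S n then (2 * lev n) ^ p else 0 := by
    intro h hh
    rw [mem_filter, not_lt] at hh
    obtain ⟨n, hn1, hn2⟩ := exists_nat_pow_near_of_lt_one
      (show 0 < x h / 3 by linarith [he0.trans_le hh.2]) (by linarith [hx3 h] : x h / 3 ≤ 1)
      (show (0 : ℝ) < 1 / 2 by norm_num) (by norm_num)
    have hnI : n < I := by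
      by_contra hcon
      have := pow_le_pow_of_le_one (show (0 : ℝ) ≤ 1 / 2 by norm_num) (by norm_num) (not_lt.1 hcon)
      linarith [div_le_div_of_nonneg_right hh.2 (show (0 : ℝ) ≤ 3 by norm_num)]
    refine le_trans ?_ (single_le_sum (fun i _ => ?_) (mem_range.2 hnI))
    · rw [if_pos]
      · refine Real.rpow_le_rpow (hx0 h) ?_ (by linarith)
        rw [hlev]
        simp only [pow_succ]
        linarith
      · rw [hS, mem_filter, hlev]
        exact ⟨hh.1, by linarith, hh.2⟩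
    · split_ifs
      · exact Real.rpow_nonneg (by rw [hlev]; positivity) _
      · exact le_rfl
  have hcard : ∀ n, ((S n).card : ℝ) ≤ C' / lev n ^ γ := fun n => by
    have hlev0 : 0 < lev n := by rw [hlev]; positivity
    obtain ⟨d, hd⟩ : ∃ d, d = max (lev n) e := ⟨_, rfl⟩
    have hd0 : 0 < d := hd ▸ lt_max_of_lt_left hlev0
    have hd3 : d ≤ 3 := by
      rw [hd, hlev]
      refine max_le (mul_le_of_le_one_right (by norm_num) (pow_le_one₀ (by norm_num) (by norm_num)))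
        ?_
      rw [he, div_le_iff₀ (by positivity)]
      linarith [one_le_pow₀ (n := A) hl1]
    have h1 := hlarge N hN3 a hB d hd0 hd3 (hl ▸ he ▸ hd ▸ le_max_right _ _) (S n)
      (hS ▸ filter_subset _ _) fun h hh => ?_
    · rw [le_div_iff₀ (Real.rpow_pos_of_pos hlev0 _)]
      refine le_trans (mul_le_mul_of_nonneg_left (Real.rpow_le_rpow hlev0.le
        (hd ▸ le_max_left _ _) hγ0) (Nat.cast_nonneg _)) ?_
      have h2 : (((S n).card : ℝ) * d ^ γ) ^ k ≤ C' := by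
        rw [mul_pow, ← Real.rpow_natCast (d ^ γ), ← Real.rpow_mul hd0.le, hγ,
          div_mul_cancel₀ _ hkR.ne', Real.rpow_natCast]
        exact h1.trans (hC' ▸ le_max_left _ _)
      rcases le_or_gt (((S n).card : ℝ) * d ^ γ) 1 with h3 | h3
      · linarith
      · exact (le_self_pow₀ h3.le (by omega)).trans h2
    · rw [hS, mem_filter] at hh
      have h2 : d ≤ x h := hd ▸ max_le hh.2.1 hh.2.2
      rw [hx, le_div_iff₀ (Real.sqrt_pos.2 hWpos)] at h2
      refine le_trans (le_of_eq ?_) (pow_le_pow_left₀ (by positivity) h2 2)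
      rw [mul_pow, Real.sq_sqrt hW0, hW]
  refine (sum_le_sum hcover).trans ?_
  rw [sum_comm]
  refine (sum_le_sum (g := fun n => C' * 2 ^ γ * 3 ^ (p - γ) * ρ ^ n) fun n _ => ?_).trans ?_
  · refine (sum_le_sum_of_subset_of_nonneg (filter_subset _ _) fun i _ _ => ?_).trans ?_
    · split_ifs
      · exact Real.rpow_nonneg (by rw [hlev]; positivity) _
      · exact le_rfl
    rw [← sum_filter, sum_const, nsmul_eq_mul]
    refine (mul_le_mul_of_nonneg_right ((Nat.cast_le.2 (card_le_card fun h hh => ?_)).trans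
      (hcard n)) (Real.rpow_nonneg (by rw [hlev]; positivity) _)).trans (le_of_eq ?_)
    · exact (mem_filter.1 hh).2
    have hy : (0 : ℝ) < 3 * (1 / 2) ^ n := by positivity
    have e1 : 2 * lev n = 3 * (1 / 2) ^ n := by rw [hlev]; simp only [pow_succ]; ring
    have e2 : lev n = 3 * (1 / 2) ^ n / 2 := by rw [hlev]; simp only [pow_succ]; ring
    have e3 : ρ ^ n = ((1 / 2 : ℝ) ^ n) ^ (p - γ) := by
      rw [hρ, ← Real.rpow_natCast, ← Real.rpow_mul (by norm_num), ← Real.rpow_natCast,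
        ← Real.rpow_mul (by norm_num), mul_comm]
    rw [e1, e2, e3, Real.div_rpow hy.le two_pos.le, div_div_eq_mul_div, mul_assoc (C' * 2 ^ γ),
      ← Real.mul_rpow (by norm_num) (by positivity), Real.rpow_sub hy]
    field_simp
  · rw [← mul_sum, hD, div_eq_mul_inv (C' * 2 ^ γ * 3 ^ (p - γ))]
    refine mul_le_mul_of_nonneg_left ?_ (by positivity)
    rw [← tsum_geometric_of_lt_one hρ0 hρ1]
    exact (summable_geometric_of_lt_one hρ0 hρ1).sum_le_tsum _ fun i _ => by positivity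

/-- **From the grid to the interval.** -/
theorem integral_le_of_grid {N : ℕ} (hN : 0 < N) {p : ℝ} (hp : 0 ≤ p) (c : ℕ → ℂ) {D : ℝ}
    (h : ∀ c' : ℕ → ℂ, (∀ n, ‖c' n‖ = ‖c n‖) →
      ∑ h ∈ range N, ‖∑ n ∈ Icc 1 N, c' n * eAdd ((n : ℝ) * h / N)‖ ^ p ≤ D) :
    ∫ t in (0 : ℝ)..1, ‖∑ n ∈ Icc 1 N, c n * eAdd ((n : ℝ) * t)‖ ^ p ≤ D / N := by
  obtain ⟨g, hg⟩ : ∃ g : ℝ → ℝ,
      g = fun t => ‖∑ n ∈ Icc 1 N, c n * eAdd ((n : ℝ) * t)‖ ^ p := ⟨_, rfl⟩
  have hcont : Continuous g := by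
    have he : Continuous fun t : ℝ => ∑ n ∈ Icc 1 N, c n * eAdd ((n : ℝ) * t) := by
      refine continuous_finsetSum _ fun n _ => continuous_const.mul ?_
      unfold FA.ThreePrimes.eAdd
      fun_prop
    rw [hg]
    exact he.norm.rpow_const fun _ => Or.inr hp
  have hN0 : (0 : ℝ) < N := Nat.cast_pos.2 hN
  have h1 := intervalIntegral.sum_integral_adjacent_intervals (μ := MeasureTheory.volume)
    (a := fun i : ℕ => (i : ℝ) / N) (n := N) (f := g) fun i _ => hcont.intervalIntegrable _ _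
  simp only [Nat.cast_zero, zero_div, div_self hN0.ne'] at h1
  have h2 : ∀ i : ℕ, ∫ t in (i : ℝ) / N..((i + 1 : ℕ) : ℝ) / N, g t =
      ∫ t in (0 : ℝ)..(1 / N : ℝ), g ((i : ℝ) / N + t) := fun i => by
    rw [intervalIntegral.integral_comp_add_left, add_zero]
    push_cast
    rw [add_div]
  rw [show (fun t : ℝ => ‖∑ n ∈ Icc 1 N, c n * eAdd ((n : ℝ) * t)‖ ^ p) = g from hg.symm, ← h1,
    sum_congr rfl fun i _ => h2 i, ← intervalIntegral.integral_finsetSum
      (f := fun (i : ℕ) t => g ((i : ℝ) / N + t))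
      fun i _ => (hcont.comp (continuous_const.add continuous_id)).intervalIntegrable _ _]
  refine (intervalIntegral.integral_mono_on (g := fun _ => D) (by positivity)
    ((continuous_finsetSum _ fun (i : ℕ) _ =>
      hcont.comp (continuous_const.add continuous_id)).intervalIntegrable _ _)
    intervalIntegrable_const fun t _ => ?_).trans (le_of_eq ?_)
  · refine le_trans (le_of_eq (sum_congr rfl fun i _ => ?_))
      (h (fun n => c n * eAdd ((n : ℝ) * t)) fun n => by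
        rw [norm_mul, ThreePrimes.norm_eAdd, mul_one])
    simp only [hg]
    refine congrArg (fun z : ℂ => ‖z‖ ^ p) (sum_congr rfl fun n _ => ?_)
    rw [mul_assoc, ← ThreePrimes.eAdd_add]
    change c n * eAdd ((n : ℝ) * ((i : ℝ) / N + t)) = _
    ring_nf
  · rw [intervalIntegral.integral_const, smul_eq_mul, sub_zero]
    ring

/-- `∑_{p ≤ N prime} a p e (p t)`. -/
def primePoly (N : ℕ) (a : ℕ → ℂ) (t : ℝ) : ℂ :=
  ∑ n ∈ (Icc 1 N).filter Nat.Prime, a n * eAdd ((n : ℝ) * t)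

/-- **The restriction estimate with the von Mangoldt weight.** -/
theorem exists_restriction {p : ℝ} (hp : 2 < p) : ∃ C : ℝ, 0 < C ∧ ∀ N : ℕ, 1 ≤ N → ∀ a : ℕ → ℂ,
    ∫ t in (0 : ℝ)..1, ‖∑ n ∈ Icc 1 N, a n * (√(Λ n) : ℝ) * eAdd ((n : ℝ) * t)‖ ^ p ≤
      C * ((N : ℝ) * energy N a) ^ (p / 2) / N := by
  obtain ⟨C, hC, h⟩ := exists_grid_restriction hp
  refine ⟨C, hC, fun N hN a => integral_le_of_grid (c := fun n => a n * (√(Λ n) : ℝ)) (by omega)
    (by linarith) fun c' hc' => ?_⟩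
  obtain ⟨b, hb⟩ : ∃ b : ℕ → ℂ, b = fun n => c' n / (√(Λ n) : ℝ) := ⟨_, rfl⟩
  have hbc : ∀ n, b n * (√(Λ n) : ℝ) = c' n ∧ ‖b n‖ ≤ ‖a n‖ := fun n => by
    have h1 := hc' n
    rw [norm_mul, Complex.norm_real, Real.norm_eq_abs, abs_of_nonneg (Real.sqrt_nonneg _)] at h1
    rcases (Real.sqrt_nonneg (Λ n)).eq_or_lt with h0 | h0
    · rw [← h0, mul_zero, norm_eq_zero] at h1
      rw [hb, ← h0]
      simp [h1]
    · rw [hb]
      simp only
      refine ⟨div_mul_cancel₀ _ (Complex.ofReal_ne_zero.2 h0.ne'), le_of_eq ?_⟩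
      rw [norm_div, h1, Complex.norm_real, Real.norm_eq_abs, abs_of_pos h0,
        mul_div_cancel_right₀ _ h0.ne']
  refine le_trans (le_of_eq (sum_congr rfl fun x _ => ?_)) ((h N hN b).trans ?_)
  · simp only [restrictSum, (hbc _).1]
  · refine mul_le_mul_of_nonneg_left (Real.rpow_le_rpow (by positivity [energy_nonneg N b]) ?_
      (by linarith)) hC.le
    exact mul_le_mul_of_nonneg_left (sum_le_sum fun n _ =>
      pow_le_pow_left₀ (norm_nonneg _) (hbc n).2 2) (Nat.cast_nonneg N)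

/-- The number of primes up to `N`. -/
theorem card_primes_mul_log_le (N : ℕ) :
    (((Icc 1 N).filter Nat.Prime).card : ℝ) * Real.log N ≤ 14 * N := by
  classical
  rcases Nat.eq_zero_or_pos N with rfl | hN
  · simp
  obtain ⟨l, hl⟩ : ∃ l, l = Real.log N := ⟨_, rfl⟩
  have hl0 : 0 ≤ l := hl ▸ Real.log_natCast_nonneg _
  rw [← hl, ← card_filter_add_card_filter_not
    (s := (Icc 1 N).filter Nat.Prime) (fun n => n * n ≤ N), Nat.cast_add, add_mul]
  have h1 : ((((Icc 1 N).filter Nat.Prime).filter fun n => n * n ≤ N).card : ℝ) * l ≤ 2 * N := by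
    have hc : (((Icc 1 N).filter Nat.Prime).filter fun n => n * n ≤ N).card ≤ Nat.sqrt N := by
      refine (card_le_card (t := Icc 1 (Nat.sqrt N)) fun n hn => ?_).trans_eq (by simp)
      simp only [mem_filter, mem_Icc] at hn ⊢
      exact ⟨hn.1.1.1, Nat.le_sqrt.2 hn.2⟩
    have hl2 := Real.log_le_rpow_div (Nat.cast_nonneg (α := ℝ) N) (show (0 : ℝ) < 1 / 2 by norm_num)
    rw [← Real.sqrt_eq_rpow, ← hl] at hl2
    refine (mul_le_mul ((Nat.cast_le.2 hc).trans Real.nat_sqrt_le_real_sqrt) hl2 hl0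
      (Real.sqrt_nonneg _)).trans (le_of_eq ?_)
    rw [mul_div_assoc', Real.mul_self_sqrt (Nat.cast_nonneg N)]
    ring
  have h2 : ((((Icc 1 N).filter Nat.Prime).filter fun n => ¬ n * n ≤ N).card : ℝ) * (l / 2) ≤
      6 * N := by
    rw [← nsmul_eq_mul, ← sum_const]
    refine (sum_le_sum (g := fun n => Λ n) fun n hn => ?_).trans
      ((sum_le_sum_of_subset_of_nonneg (t := Ioc 0 N) (fun n hn => ?_)
        fun _ _ _ => vonMangoldt_nonneg).trans (ThreePrimes.sum_vonMangoldt_le N))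
    · simp only [mem_filter, not_le] at hn
      rw [vonMangoldt_apply_prime hn.1.2, hl, div_le_iff₀ two_pos]
      refine (Real.log_le_log (Nat.cast_pos.2 hN) (Nat.cast_le.2 hn.2.le)).trans (le_of_eq ?_)
      rw [Nat.cast_mul, Real.log_mul (Nat.cast_ne_zero.2 hn.1.2.ne_zero)
        (Nat.cast_ne_zero.2 hn.1.2.ne_zero)]
      ring
    · exact (mem_filter.1 (mem_filter.1 hn).1).1
  linarith

/-- **The restriction estimate for the primes on the grid.** -/
theorem exists_prime_grid_restriction {p : ℝ} (hp : 2 < p) : ∃ C : ℝ, 0 < C ∧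
    ∀ N : ℕ, 2 ≤ N → ∀ c : ℕ → ℂ, (∀ n, ¬ n.Prime → c n = 0) →
      ∑ h ∈ range N, ‖∑ n ∈ Icc 1 N, c n * eAdd ((n : ℝ) * h / N)‖ ^ p ≤
        C * ((N : ℝ) / Real.log N * energy N c) ^ (p / 2) := by
  classical
  obtain ⟨C, hC, hgrid⟩ := exists_grid_restriction hp
  obtain ⟨ε, hε⟩ : ∃ ε : ℝ, ε = (p - 2) / (2 * p) := ⟨_, rfl⟩
  have hε0 : 0 < ε := hε ▸ div_pos (by linarith) (by linarith)
  refine ⟨2 ^ p * (C * 2 ^ (p / 2) + (1 / ε) ^ (p / 2)), by positivity, fun N hN c hc => ?_⟩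
  have hN0 : (0 : ℝ) < N := Nat.cast_pos.2 (by omega)
  obtain ⟨l, hl⟩ : ∃ l, l = Real.log N := ⟨_, rfl⟩
  have hl0 : 0 < l := hl ▸ Real.log_pos (by exact_mod_cast hN)
  rw [← hl]
  obtain ⟨B, hB⟩ : ∃ B, B = energy N c := ⟨_, rfl⟩
  have hB0 : 0 ≤ B := hB ▸ energy_nonneg N c
  rw [← hB]
  obtain ⟨b, hb⟩ : ∃ b : ℕ → ℂ,
      b = fun n => if n * n ≤ N then 0 else c n / (√(Λ n) : ℝ) := ⟨_, rfl⟩
  obtain ⟨d, hd⟩ : ∃ d : ℕ → ℂ, d = fun n => if n * n ≤ N then c n else 0 := ⟨_, rfl⟩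
  have hsplit : ∀ n, c n = b n * (√(Λ n) : ℝ) + d n := fun n => by
    rw [hb, hd]
    simp only
    by_cases h : n * n ≤ N
    · simp [if_pos h]
    · rw [if_neg h, if_neg h, add_zero]
      by_cases hn : n.Prime
      · rw [div_mul_cancel₀]
        rw [Complex.ofReal_ne_zero, Real.sqrt_ne_zero vonMangoldt_nonneg,
          vonMangoldt_apply_prime hn]
        exact (Real.log_pos (by exact_mod_cast hn.one_lt)).ne'
      · simp [hc n hn]
  obtain ⟨V, hV⟩ : ∃ V, V = ((N : ℝ) / l * B) ^ (p / 2) := ⟨_, rfl⟩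
  have hV0 : 0 ≤ V := hV ▸ Real.rpow_nonneg (by positivity) _
  rw [← hV]
  have hmain : ∑ h ∈ range N, ‖restrictSum N b h‖ ^ p ≤ C * 2 ^ (p / 2) * V := by
    refine (hgrid N (by omega) b).trans ?_
    rw [mul_assoc C, hV, ← Real.mul_rpow two_pos.le (by positivity)]
    refine mul_le_mul_of_nonneg_left (Real.rpow_le_rpow
      (mul_nonneg hN0.le (energy_nonneg N b)) ?_ (by linarith)) hC.le
    have h1 : energy N b ≤ 2 / l * B := by
      rw [hB, energy, energy, mul_sum]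
      refine sum_le_sum fun n hn => ?_
      rw [hb]
      simp only
      split_ifs with h
      · simp only [norm_zero, ne_eq, OfNat.ofNat_ne_zero, not_false_eq_true, zero_pow]
        positivity
      by_cases hp' : n.Prime
      · rw [norm_div, div_pow, Complex.norm_real, Real.norm_eq_abs, sq_abs,
          Real.sq_sqrt vonMangoldt_nonneg, vonMangoldt_apply_prime hp', div_eq_mul_inv, mul_comm]
        refine mul_le_mul_of_nonneg_right ?_ (sq_nonneg _)
        have hn0 : (0 : ℝ) < n := Nat.cast_pos.2 hp'.pos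
        rw [inv_eq_one_div, div_le_div_iff₀ (Real.log_pos (by exact_mod_cast hp'.one_lt)) hl0,
          one_mul, hl, two_mul, ← Real.log_mul hn0.ne' hn0.ne']
        exact Real.log_le_log hN0 (by exact_mod_cast (not_le.1 h).le)
      · simp [hc n hp']
    refine (mul_le_mul_of_nonneg_left h1 hN0.le).trans (le_of_eq ?_)
    ring
  obtain ⟨g, hg⟩ : ∃ g : ℕ → ℂ,
      g = fun h : ℕ => ∑ n ∈ Icc 1 N, d n * eAdd ((n : ℝ) * h / N) := ⟨_, rfl⟩
  have hdc : ∀ n, ‖d n‖ ≤ ‖c n‖ := fun n => by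
    rw [hd]
    simp only
    split_ifs <;> simp
  have hrest : ∑ h ∈ range N, ‖g h‖ ^ p ≤ (1 / ε) ^ (p / 2) * V := by
    have hsup : ∀ h, ‖g h‖ ^ 2 ≤ √(N : ℝ) * B := fun h => by
      rw [hg]
      simp only
      rw [hd]
      simp only [ite_mul, zero_mul]
      rw [← sum_filter]
      refine (pow_le_pow_left₀ (norm_nonneg _) (norm_sum_le _ _) 2).trans ?_
      refine sq_sum_le_card_mul_sum_sq.trans (mul_le_mul ?_ ?_ (sum_nonneg fun _ _ => sq_nonneg _)
        (Real.sqrt_nonneg _))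
      · refine (Nat.cast_le.2 ((card_le_card (t := Icc 1 (Nat.sqrt N)) fun n hn => ?_).trans_eq
          (by simp))).trans Real.nat_sqrt_le_real_sqrt
        simp only [mem_filter, mem_Icc] at hn ⊢
        exact ⟨hn.1.1, Nat.le_sqrt.2 hn.2⟩
      · rw [hB, energy]
        refine le_trans (le_of_eq (sum_congr rfl fun n _ => ?_))
          (sum_le_sum_of_subset_of_nonneg (filter_subset _ _) fun n _ _ => sq_nonneg _)
        rw [norm_mul, ThreePrimes.norm_eAdd, mul_one]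
    have hl2 : ∑ h ∈ range N, ‖g h‖ ^ 2 ≤ N * B := by
      rw [hg, sum_norm_sq_full (by omega), hB]
      exact mul_le_mul_of_nonneg_left (sum_le_sum fun n _ =>
        pow_le_pow_left₀ (norm_nonneg _) (hdc n) 2) hN0.le
    refine (sum_le_sum (g := fun h => (√(N : ℝ) * B) ^ ((p - 2) / 2) * ‖g h‖ ^ 2)
      fun h _ => ?_).trans ?_
    · rw [show p = p - 2 + ((2 : ℕ) : ℝ) by push_cast; ring,
        Real.rpow_add_natCast' (norm_nonneg _) (by push_cast; linarith)]
      push_cast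
      rw [sub_add_cancel]
      refine mul_le_mul_of_nonneg_right ?_ (sq_nonneg _)
      rw [show p - 2 = ((2 : ℕ) : ℝ) * ((p - 2) / 2) by push_cast; ring,
        Real.rpow_mul (norm_nonneg _), Real.rpow_natCast]
      refine (Real.rpow_le_rpow (sq_nonneg _) (hsup h) (by linarith)).trans (le_of_eq ?_)
      congr 1
      push_cast
      ring
    rw [← mul_sum]
    refine (mul_le_mul_of_nonneg_left hl2 (Real.rpow_nonneg (by positivity) _)).trans ?_
    rcases hB0.eq_or_lt with h | h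
    · rw [← h, mul_zero, mul_zero, mul_zero]
      positivity
    have hle : l ^ (p / 2) ≤ (1 / ε) ^ (p / 2) * (N : ℝ) ^ ((p - 2) / 4) := by
      have h1 := Real.log_le_rpow_div hN0.le hε0
      rw [← hl] at h1
      refine (Real.rpow_le_rpow hl0.le h1 (by linarith)).trans (le_of_eq ?_)
      rw [Real.div_rpow (Real.rpow_nonneg hN0.le _) hε0.le, ← Real.rpow_mul hN0.le,
        show ε * (p / 2) = (p - 2) / 4 by rw [hε]; field_simp; ring,
        Real.div_rpow zero_le_one hε0.le, Real.one_rpow]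
      ring
    rw [hV, div_mul_eq_mul_div, Real.div_rpow (by positivity) hl0.le,
      Real.mul_rpow hN0.le h.le, Real.mul_rpow (Real.sqrt_nonneg _) h.le, mul_div_assoc',
      le_div_iff₀ (Real.rpow_pos_of_pos hl0 _)]
    refine (mul_le_mul_of_nonneg_left hle (by positivity)).trans (le_of_eq ?_)
    have eB : B ^ (p / 2) = B ^ ((p - 2) / 2) * B := by
      conv_rhs => rw [← Real.rpow_add_one h.ne']
      ring_nf
    have eN : (N : ℝ) ^ (p / 2) =
        √(N : ℝ) ^ ((p - 2) / 2) * N * (N : ℝ) ^ ((p - 2) / 4) := by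
      rw [Real.sqrt_eq_rpow, ← Real.rpow_mul hN0.le, ← Real.rpow_add_one hN0.ne',
        ← Real.rpow_add hN0]
      ring_nf
    rw [eB, eN]
    ring
  refine (sum_le_sum (g := fun h => (2 : ℝ) ^ p * (‖restrictSum N b h‖ ^ p + ‖g h‖ ^ p))
    fun h _ => ?_).trans ?_
  · obtain ⟨u, hu⟩ : ∃ u, u = ‖restrictSum N b h‖ := ⟨_, rfl⟩
    obtain ⟨v, hv⟩ : ∃ v, v = ‖g h‖ := ⟨_, rfl⟩
    have hu0 : 0 ≤ u := hu ▸ norm_nonneg _
    have hv0 : 0 ≤ v := hv ▸ norm_nonneg _
    have h1 : ‖∑ n ∈ Icc 1 N, c n * eAdd ((n : ℝ) * h / N)‖ ≤ 2 * max u v := by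
      refine le_trans ?_ (le_trans (add_le_add (le_max_left u v) (le_max_right u v))
        (le_of_eq (two_mul _).symm))
      rw [hu, hv]
      refine le_trans (le_of_eq (congrArg _ ?_)) (norm_add_le _ _)
      rw [hg, restrictSum, ← sum_add_distrib]
      exact sum_congr rfl fun n _ => by rw [hsplit n]; ring
    rw [← hu, ← hv]
    refine (Real.rpow_le_rpow (norm_nonneg _) h1 (by linarith)).trans ?_
    rw [Real.mul_rpow two_pos.le (le_max_of_le_left hu0)]
    refine mul_le_mul_of_nonneg_left ?_ (by positivity)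
    rcases le_total u v with h | h
    · rw [max_eq_right h]
      exact le_add_of_nonneg_left (Real.rpow_nonneg hu0 _)
    · rw [max_eq_left h]
      exact le_add_of_nonneg_right (Real.rpow_nonneg hv0 _)
  · rw [← mul_sum, sum_add_distrib, mul_assoc, add_mul]
    exact mul_le_mul_of_nonneg_left (add_le_add hmain hrest) (by positivity)

/-- **Bourgain's restriction theorem for the primes.** -/
theorem exists_prime_restriction {p : ℝ} (hp : 2 < p) : ∃ C : ℝ, 0 < C ∧
    ∀ N : ℕ, 2 ≤ N → ∀ a : ℕ → ℂ, ∫ t in (0 : ℝ)..1, ‖primePoly N a t‖ ^ p ≤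
      C * ((N : ℝ) / Real.log N * ∑ n ∈ (Icc 1 N).filter Nat.Prime, ‖a n‖ ^ 2) ^ (p / 2) / N := by
  classical
  obtain ⟨C, hC, h⟩ := exists_prime_grid_restriction hp
  refine ⟨C, hC, fun N hN a => ?_⟩
  obtain ⟨c, hc⟩ : ∃ c : ℕ → ℂ, c = fun n => if n.Prime then a n else 0 := ⟨_, rfl⟩
  have e : ∀ t : ℝ, primePoly N a t = ∑ n ∈ Icc 1 N, c n * eAdd ((n : ℝ) * t) := fun t => by
    rw [primePoly, sum_filter, hc]
    simp only [ite_mul, zero_mul]
  have e2 : ∑ n ∈ (Icc 1 N).filter Nat.Prime, ‖a n‖ ^ 2 = energy N c := by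
    rw [energy, sum_filter, hc]
    exact sum_congr rfl fun n _ => by by_cases hn : n.Prime <;> simp [hn]
  simp only [e, e2]
  refine integral_le_of_grid (by omega) (by linarith) c fun c' hc' => (h N hN c' ?_).trans
    (le_of_eq ?_)
  · intro n hn
    rw [← norm_eq_zero, hc', hc]
    simp [if_neg hn]
  · simp only [energy, hc']

/-- **The moments of the exponential sum over the primes.** -/
theorem exists_prime_moment {p : ℝ} (hp : 2 < p) : ∃ C : ℝ, 0 < C ∧ ∀ N : ℕ, 2 ≤ N →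
    ∫ t in (0 : ℝ)..1, ‖primePoly N (fun _ => 1) t‖ ^ p ≤
      C * ((N : ℝ) / Real.log N) ^ p / N := by
  obtain ⟨C, hC, h⟩ := exists_prime_restriction hp
  refine ⟨C * 14 ^ (p / 2), by positivity, fun N hN => (h N hN fun _ => 1).trans ?_⟩
  have hl0 : 0 < Real.log N := Real.log_pos (by exact_mod_cast hN)
  obtain ⟨Y, hY⟩ : ∃ Y, Y = (N : ℝ) / Real.log N := ⟨_, rfl⟩
  have hY0 : 0 < Y := hY ▸ div_pos (Nat.cast_pos.2 (by omega)) hl0
  simp only [norm_one, one_pow, sum_const, nsmul_eq_mul, mul_one, ← hY, mul_assoc C]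
  refine div_le_div_of_nonneg_right (mul_le_mul_of_nonneg_left ?_ hC.le) (Nat.cast_nonneg N)
  have h1 : (((Icc 1 N).filter Nat.Prime).card : ℝ) ≤ 14 * Y := by
    rw [hY, mul_div_assoc', le_div_iff₀ hl0]
    exact card_primes_mul_log_le N
  refine (Real.rpow_le_rpow (by positivity) (mul_le_mul_of_nonneg_left h1 hY0.le)
    (by linarith)).trans (le_of_eq ?_)
  rw [show Y * (14 * Y) = 14 * (Y * Y) by ring, Real.mul_rpow (by norm_num) (by positivity),
    Real.mul_rpow hY0.le hY0.le, ← Real.rpow_add hY0, add_halves]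

end FA.PrimeRestriction
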