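import Fermat.Agent.Forms3.RepresentationBound
import Fermat.Agent.BurgessComposite.Inequality
import Mathlib.Analysis.SpecialFunctions.Pow.Real
import Mathlib.NumberTheory.Harmonic.Bounds

/-!
# Moments of the truncated divisor function

The number `d_U (m)` of divisors of `m` up to `U` has all its moments over `m ≤ X` bounded by
`O (X U ^ ε)`, whatever the size of `X`, and `q / φ q = O (q ^ ε)`.
-/

set_option autoImplicit false

noncomputable section

namespace FA.PrimeRestriction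

open Finset

/-- The number of divisors of `m` up to `U`. -/
def truncDivisors (U m : ℕ) : ℕ := ((Icc 1 U).filter fun q => q ∣ m).card

/-- `d_U (q n) ≤ τ q * d_U n`. -/
theorem truncDivisors_mul_le {U q : ℕ} (hq : 0 < q) (n : ℕ) :
    truncDivisors U (q * n) ≤ q.divisors.card * truncDivisors U n := by
  classical
  rw [truncDivisors, truncDivisors, ← card_product]
  refine (card_le_card (t := (q.divisors ×ˢ (Icc 1 U).filter fun f => f ∣ n).image
    fun x => x.1 * x.2) fun e he => ?_).trans card_image_le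
  rw [mem_filter, mem_Icc] at he
  obtain ⟨y, z, hy, hz, rfl⟩ := Nat.dvd_mul.1 he.2
  refine mem_image.2 ⟨(y, z), mem_product.2 ⟨Nat.mem_divisors.2 ⟨hy, hq.ne'⟩,
    mem_filter.2 ⟨mem_Icc.2 ⟨?_, ?_⟩, hz⟩⟩, rfl⟩
  · exact Nat.pos_of_mul_pos_left he.1.1
  · exact (Nat.le_mul_of_pos_left z (Nat.pos_of_mul_pos_right he.1.1)).trans he.1.2

theorem exists_sum_divisors_pow_div_le (k : ℕ) {η : ℝ} (hη : 0 < η) : ∃ C : ℝ, 0 < C ∧
    ∀ U : ℕ, 1 ≤ U → ∑ q ∈ Icc 1 U, (q.divisors.card : ℝ) ^ k / q ≤ C * (U : ℝ) ^ η := by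
  obtain ⟨C, hC, hτ⟩ :=
    RepresentationBound.card_divisors_isBigO (η / (2 * (k + 1))) (by positivity)
  refine ⟨C ^ k * (1 + 2 / η), by positivity, fun U hU => ?_⟩
  have hU1 : (1 : ℝ) ≤ U := by exact_mod_cast hU
  have h1 : ∀ q ∈ Icc 1 U, (q.divisors.card : ℝ) ^ k / q ≤
      C ^ k * (U : ℝ) ^ (η / 2) * (1 / q) := by
    intro q hq
    rw [mem_Icc] at hq
    have hq0 : (0 : ℝ) < q := Nat.cast_pos.2 hq.1
    rw [mul_one_div]
    refine div_le_div_of_nonneg_right ((pow_le_pow_left₀ (Nat.cast_nonneg _)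
      (hτ q (by omega)) k).trans ?_) hq0.le
    rw [mul_pow]
    refine mul_le_mul_of_nonneg_left ?_ (by positivity)
    rw [← Real.rpow_natCast, ← Real.rpow_mul hq0.le]
    refine (Real.rpow_le_rpow hq0.le (Nat.cast_le.2 hq.2) (by positivity)).trans
      (Real.rpow_le_rpow_of_exponent_le hU1 ?_)
    rw [div_mul_eq_mul_div, div_le_div_iff₀ (by positivity) two_pos]
    nlinarith
  refine (sum_le_sum h1).trans ?_
  rw [← mul_sum]
  have h2 : ∑ q ∈ Icc 1 U, (1 : ℝ) / q ≤ 1 + Real.log U := by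
    refine le_trans (le_of_eq ?_) (harmonic_le_one_add_log U)
    rw [harmonic_eq_sum_Icc]
    push_cast
    simp
  have h3 : 1 + Real.log U ≤ (1 + 2 / η) * (U : ℝ) ^ (η / 2) := by
    have h4 := Real.log_le_rpow_div (Nat.cast_nonneg (α := ℝ) U) (show 0 < η / 2 by positivity)
    have h5 : (1 : ℝ) ≤ (U : ℝ) ^ (η / 2) := Real.one_le_rpow hU1 (by positivity)
    rw [div_div_eq_mul_div] at h4
    rw [add_mul, one_mul, div_mul_eq_mul_div, mul_comm 2]
    linarith
  refine (mul_le_mul_of_nonneg_left (h2.trans h3) (by positivity)).trans (le_of_eq ?_)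
  have e : (U : ℝ) ^ η = (U : ℝ) ^ (η / 2) * (U : ℝ) ^ (η / 2) := by
    rw [← Real.rpow_add (by linarith)]
    ring_nf
  rw [e]
  ring

/-- **The moments.** -/
theorem exists_moment_le (k : ℕ) : ∀ η : ℝ, 0 < η → ∃ C : ℝ, 0 < C ∧ ∀ U : ℕ, 1 ≤ U →
    ∀ X : ℕ, ∑ m ∈ Ioc 0 X, (truncDivisors U m : ℝ) ^ k ≤ C * X * (U : ℝ) ^ η := by
  induction k with
  | zero =>
    refine fun η hη => ⟨1, one_pos, fun U hU X => ?_⟩
    simp only [pow_zero, sum_const, Nat.card_Ioc, Nat.sub_zero, nsmul_eq_mul, mul_one, one_mul]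
    exact le_mul_of_one_le_right (Nat.cast_nonneg X)
      (Real.one_le_rpow (by exact_mod_cast hU) hη.le)
  | succ k ih =>
    intro η hη
    obtain ⟨C₁, hC₁, h₁⟩ := ih (η / 2) (by positivity)
    obtain ⟨C₂, hC₂, h₂⟩ := exists_sum_divisors_pow_div_le k (η := η / 2) (by positivity)
    refine ⟨C₁ * C₂, by positivity, fun U hU X => ?_⟩
    have e : ∑ m ∈ Ioc 0 X, (truncDivisors U m : ℝ) ^ (k + 1) =
        ∑ q ∈ Icc 1 U, ∑ m ∈ (Ioc 0 X).filter (fun m => q ∣ m),
          (truncDivisors U m : ℝ) ^ k := by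
      simp only [sum_filter]
      rw [sum_comm]
      refine sum_congr rfl fun m _ => ?_
      rw [← sum_filter, sum_const, nsmul_eq_mul, ← truncDivisors, pow_succ, mul_comm]
    rw [e]
    refine (sum_le_sum fun q hq => ?_).trans (b := ∑ q ∈ Icc 1 U,
      C₁ * (U : ℝ) ^ (η / 2) * X * ((q.divisors.card : ℝ) ^ k / q)) ?_
    · rw [mem_Icc] at hq
      have hmem : (Ioc 0 X).filter (fun m => q ∣ m) = (Ioc 0 (X / q)).image (q * ·) := by
        ext m
        simp only [mem_filter, mem_Ioc, mem_image]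
        constructor
        · rintro ⟨⟨h0, hmX⟩, n, rfl⟩
          refine ⟨n, ⟨Nat.pos_of_mul_pos_left h0, ?_⟩, rfl⟩
          rw [Nat.le_div_iff_mul_le hq.1, mul_comm]
          exact hmX
        · rintro ⟨n, ⟨h0, hn⟩, rfl⟩
          rw [Nat.le_div_iff_mul_le hq.1, mul_comm] at hn
          exact ⟨⟨Nat.mul_pos hq.1 h0, hn⟩, dvd_mul_right q n⟩
      rw [hmem, sum_image fun a _ b _ h => Nat.eq_of_mul_eq_mul_left hq.1 h]
      refine (sum_le_sum (g := fun n => (q.divisors.card : ℝ) ^ k *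
        (truncDivisors U n : ℝ) ^ k) fun n _ => ?_).trans ?_
      · rw [← mul_pow]
        refine pow_le_pow_left₀ (Nat.cast_nonneg _) ?_ k
        exact_mod_cast truncDivisors_mul_le hq.1 n
      · rw [← mul_sum]
        refine (mul_le_mul_of_nonneg_left ((h₁ U hU (X / q)).trans (mul_le_mul_of_nonneg_right
          (mul_le_mul_of_nonneg_left Nat.cast_div_le hC₁.le) (by positivity)))
          (by positivity)).trans (le_of_eq ?_)
        ring
    · rw [← mul_sum]
      refine (mul_le_mul_of_nonneg_left (h₂ U hU) (by positivity)).trans (le_of_eq ?_)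
      have e : (U : ℝ) ^ η = (U : ℝ) ^ (η / 2) * (U : ℝ) ^ (η / 2) := by
        rw [← Real.rpow_add (Nat.cast_pos.2 hU)]
        ring_nf
      rw [e]
      ring

/-- **`q / φ q`.** -/
theorem exists_div_totient_le {η : ℝ} (hη : 0 < η) : ∃ C : ℝ, 0 < C ∧ ∀ q U : ℕ, 1 ≤ q → q ≤ U →
    (q : ℝ) / q.totient ≤ C * (U : ℝ) ^ η := by
  obtain ⟨C, hC, h⟩ := BurgessComposite.exists_pow_card_primeFactors_le 2 zero_le_two hη
  refine ⟨C, hC, fun q U hq hqU => ?_⟩
  rw [div_le_iff₀ (Nat.cast_pos.2 (Nat.totient_pos.2 hq))]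
  have hnat : q ≤ 2 ^ q.primeFactors.card * q.totient := by
    refine Nat.le_of_mul_le_mul_right ?_
      (prod_pos fun p hp => (Nat.prime_of_mem_primeFactors hp).pos :
        0 < ∏ p ∈ q.primeFactors, p)
    rw [mul_assoc, Nat.totient_mul_prod_primeFactors, mul_left_comm, ← prod_const,
      ← prod_mul_distrib]
    refine Nat.mul_le_mul_left q (prod_le_prod' fun p hp => ?_)
    have := (Nat.prime_of_mem_primeFactors hp).two_le
    omega
  refine le_trans (Nat.cast_le.2 hnat) ?_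
  push_cast
  exact mul_le_mul_of_nonneg_right ((h q (by omega)).trans (mul_le_mul_of_nonneg_left
    (Real.rpow_le_rpow (Nat.cast_nonneg q) (Nat.cast_le.2 hqU) hη.le) hC.le)) (Nat.cast_nonneg _)

end FA.PrimeRestriction
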