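import Fermat.Agent.ThreePrimes.Circle
import Fermat.Agent.AlmostGoldbach.Circle
import Fermat.Agent.PrimeRestriction.Divisors

/-!
# A majorant for the exponential sum over the primes

For every `α` the sum `∑_{n ≤ N} Λ n e (n α)` is at most `N` times a small error plus a combination
of Fejér kernels around the fractions `a / q`, `q ≤ U`, and on the pairs of any set of points
`h / N` these kernels see only the squares of its Fourier coefficients at the multiples of `q`.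
-/

set_option autoImplicit false

noncomputable section

namespace FA.PrimeRestriction

open Finset ArithmeticFunction
open FA.ThreePrimes (eAdd twist nearDist geomSum moebiusR clip arcCentres centre mem_arcCentres)
open scoped Real ComplexConjugate

theorem eAdd_sub (x y : ℝ) : eAdd (x - y) = eAdd x * conj (eAdd y) := by
  rw [ThreePrimes.conj_eAdd, ← ThreePrimes.eAdd_add, sub_eq_add_neg]

theorem twist_add_intCast (x : ℝ) (k : ℤ) (N : ℕ) : twist (x + k) Λ N = twist x Λ N := by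
  refine sum_congr rfl fun n _ => congrArg _ ?_
  rw [mul_add, show (n : ℝ) * (k : ℝ) = (((n : ℤ) * k : ℤ) : ℝ) by push_cast; ring,
    ThreePrimes.eAdd_add_intCast]

/-- The Fejér kernel of length `M`. -/
def fejer (M : ℕ) (x : ℝ) : ℝ := ‖∑ n ∈ range M, eAdd (n * x)‖ ^ 2 / (M : ℝ) ^ 2

theorem fejer_nonneg (M : ℕ) (x : ℝ) : 0 ≤ fejer M x := div_nonneg (sq_nonneg _) (sq_nonneg _)

theorem quarter_le_fejer {M : ℕ} (hM : 0 < M) {x : ℝ} (hx : nearDist x * M ≤ 1 / 16) :
    1 / 4 ≤ fejer M x := by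
  obtain ⟨y, hy⟩ : ∃ y, y = x - (round x : ℝ) := ⟨_, rfl⟩
  rw [nearDist, ← hy] at hx
  obtain ⟨S, hS⟩ : ∃ S, S = ∑ n ∈ range M, eAdd (n * x) := ⟨_, rfl⟩
  have hM0 : (0 : ℝ) < M := Nat.cast_pos.2 hM
  have h1 : ‖S - (M : ℂ)‖ ≤ M / 2 := by
    rw [hS, show (M : ℂ) = ∑ _n ∈ range M, (1 : ℂ) by simp, ← sum_sub_distrib]
    refine (norm_sum_le _ _).trans ((sum_le_card_nsmul _ _ (1 / 2) fun n hn => ?_).trans
      (le_of_eq (by rw [card_range, nsmul_eq_mul]; ring)))
    have e : eAdd (n * x) = eAdd (n * y) := by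
      rw [← ThreePrimes.eAdd_add_intCast (n * y) ((n : ℤ) * round x), hy]
      push_cast
      ring_nf
    rw [e]
    refine (ThreePrimes.norm_eAdd_sub_one_le _).trans ?_
    rw [abs_mul, Nat.abs_cast]
    have h2 : (n : ℝ) * |y| ≤ 1 / 16 := by
      refine le_trans (mul_le_mul_of_nonneg_right (Nat.cast_le.2 (mem_range.1 hn).le)
        (abs_nonneg y)) ?_
      rwa [mul_comm]
    exact (mul_le_mul (mul_le_mul_of_nonneg_left Real.pi_le_four two_pos.le) h2
      (by positivity) (by norm_num)).trans (by norm_num)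
  have h3 := norm_sub_norm_le (M : ℂ) S
  rw [Complex.norm_natCast, norm_sub_rev] at h3
  rw [fejer, ← hS, le_div_iff₀ (by positivity)]
  nlinarith [pow_le_pow_left₀ (show (0 : ℝ) ≤ M / 2 by positivity)
    (show (M : ℝ) / 2 ≤ ‖S‖ by linarith) 2]

/-- `|∑_{h ∈ H} e (m h / N)| ^ 2`. -/
def gridNorm (N : ℕ) (H : Finset ℕ) (m : ℕ) : ℝ := ‖∑ h ∈ H, eAdd ((m : ℝ) * h / N)‖ ^ 2

theorem gridNorm_zero (N : ℕ) (H : Finset ℕ) : gridNorm N H 0 = (H.card : ℝ) ^ 2 := by
  simp [gridNorm, eAdd]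

theorem gridNorm_le (N : ℕ) (H : Finset ℕ) (m : ℕ) : gridNorm N H m ≤ (H.card : ℝ) ^ 2 := by
  refine pow_le_pow_left₀ (norm_nonneg _) ((norm_sum_le _ _).trans (le_of_eq ?_)) 2
  simp [ThreePrimes.norm_eAdd]

theorem gridNorm_self {N : ℕ} (hN : 0 < N) (H : Finset ℕ) :
    gridNorm N H N = gridNorm N H 0 := by
  have e : ∀ h : ℕ, eAdd ((N : ℝ) * h / N) = eAdd ((0 : ℕ) * h / N) := fun h => by
    rw [mul_div_assoc, mul_div_cancel₀ _ (Nat.cast_ne_zero.2 hN.ne')]
    simp [ThreePrimes.eAdd_natCast, ThreePrimes.eAdd_zero]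
  simp only [gridNorm, e]

theorem sum_gridNorm {N : ℕ} (hN : 0 < N) {H : Finset ℕ} (hH : H ⊆ range N) :
    ∑ m ∈ Ioc 0 N, gridNorm N H m = N * H.card := by
  have h1 : ∑ m ∈ range N, gridNorm N H m = N * H.card := by
    have h := AlmostGoldbach.sum_norm_sq_coeff hN H hH fun _ => 1
    simp only [one_mul, norm_one, one_pow, sum_const, nsmul_eq_mul, mul_one] at h
    rw [← h]
    refine sum_congr rfl fun m _ => ?_
    rw [gridNorm, ← Complex.norm_conj, map_sum]
    simp only [ThreePrimes.conj_eAdd, mul_div_assoc]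
  have h2 : ∑ m ∈ range (N + 1), gridNorm N H m =
      gridNorm N H 0 + ∑ m ∈ Ioc 0 N, gridNorm N H m := by
    rw [← sum_erase_add _ _ (mem_range.2 (Nat.succ_pos N) : 0 ∈ range (N + 1)), add_comm]
    congr 2
    ext m
    simp only [mem_erase, mem_range, mem_Ioc]
    omega
  rw [sum_range_succ, gridNorm_self hN, h1] at h2
  linarith

/-- **The kernels on the pairs of a set of grid points.** -/
theorem sum_fejer_le {N q M : ℕ} (hq : 0 < q) (hM : 0 < M) (hMN : M ≤ N) (H : Finset ℕ) :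
    ∑ h ∈ H, ∑ k ∈ H, ∑ a ∈ range q, fejer M (((h : ℝ) - k) / N - (a : ℝ) / q) ≤
      (q : ℝ) / M * ((H.card : ℝ) ^ 2 +
        2 * ∑ m ∈ (Ioc 0 N).filter (fun m => q ∣ m), gridNorm N H m) := by
  obtain ⟨F, hF⟩ : ∃ F : ℕ → ℝ, F = fun m => if q ∣ m then gridNorm N H m else 0 := ⟨_, rfl⟩
  have hF0 : ∀ m, 0 ≤ F m := fun m => by
    rw [hF]
    simp only
    split_ifs
    exacts [sq_nonneg _, le_rfl]
  obtain ⟨T, hT⟩ : ∃ T : ℤ → ℂ, T = fun d : ℤ => ∑ h ∈ H, eAdd ((d : ℝ) * h / N) := ⟨_, rfl⟩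
  have hT' : ∀ n n' : ℕ, ‖T ((n : ℤ) - n')‖ ^ 2 = gridNorm N H (Nat.dist n n') := by
    intro n n'
    rw [hT, gridNorm]
    rcases le_total n' n with h | h
    · rw [Nat.dist_eq_sub_of_le_right h, Nat.cast_sub h]
      push_cast
      rfl
    · rw [Nat.dist_eq_sub_of_le h, Nat.cast_sub h, ← Complex.norm_conj, map_sum]
      simp only [ThreePrimes.conj_eAdd]
      push_cast
      refine congrArg (fun z : ℂ => ‖z‖ ^ 2) (sum_congr rfl fun x _ => congrArg _ ?_)
      ring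
  have key : ∑ h ∈ H, ∑ k ∈ H, ∑ a ∈ range q,
      ‖∑ n ∈ range M, eAdd (n * (((h : ℝ) - k) / N - (a : ℝ) / q))‖ ^ 2 =
      q * ∑ n ∈ range M, ∑ n' ∈ range M, F (Nat.dist n n') := by
    apply Complex.ofReal_injective
    have e : ∀ x : ℝ, ((‖∑ n ∈ range M, eAdd (n * x)‖ ^ 2 : ℝ) : ℂ) =
        ∑ n ∈ range M, ∑ n' ∈ range M, eAdd ((((n : ℤ) - n' : ℤ) : ℝ) * x) := by
      intro x
      rw [Complex.ofReal_pow, ← Complex.mul_conj', map_sum, sum_mul_sum]
      refine sum_congr rfl fun n _ => sum_congr rfl fun n' _ => ?_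
      push_cast
      rw [sub_mul, eAdd_sub]
    have e2 : ∀ n n' : ℕ, ∑ h ∈ H, ∑ k ∈ H, ∑ a ∈ range q,
        eAdd ((((n : ℤ) - n' : ℤ) : ℝ) * (((h : ℝ) - k) / N - (a : ℝ) / q)) =
        ((q * F (Nat.dist n n') : ℝ) : ℂ) := by
      intro n n'
      obtain ⟨d, hd⟩ : ∃ d : ℤ, d = (n : ℤ) - n' := ⟨_, rfl⟩
      rw [← hd]
      have e3 : ∀ h k a : ℕ, eAdd ((d : ℝ) * (((h : ℝ) - k) / N - (a : ℝ) / q)) =
          eAdd ((d : ℝ) * h / N) * conj (eAdd ((d : ℝ) * k / N)) *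
            eAdd (((-d : ℤ) : ℝ) * a / q) := by
        intro h k a
        rw [← eAdd_sub, ← ThreePrimes.eAdd_add]
        push_cast
        ring_nf
      simp only [e3, ← mul_sum, ← sum_mul, ← map_sum]
      rw [ThreePrimes.sum_eAdd_grid hq, Complex.mul_conj']
      have hiff : (q : ℤ) ∣ -d ↔ q ∣ Nat.dist n n' := by
        rw [dvd_neg, hd, ← Int.natCast_dvd_natCast]
        rcases le_total n' n with h | h
        · rw [Nat.dist_eq_sub_of_le_right h, Nat.cast_sub h]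
        · rw [Nat.dist_eq_sub_of_le h, Nat.cast_sub h, dvd_sub_comm]
      rw [hF]
      simp only [hiff]
      split_ifs with hdvd
      · rw [← hT' n n', ← hd, hT]
        push_cast
        ring
      · simp
    rw [mul_sum]
    simp only [mul_sum]
    simp only [Complex.ofReal_sum, e, ← e2]
    rw [sum_congr rfl fun h _ => sum_congr rfl fun k _ => sum_comm,
      sum_congr rfl fun h _ => sum_comm, sum_comm]
    refine sum_congr rfl fun n _ => ?_
    rw [sum_congr rfl fun h _ => sum_congr rfl fun k _ => sum_comm,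
      sum_congr rfl fun h _ => sum_comm, sum_comm]
  have hdist : ∑ n ∈ range M, ∑ n' ∈ range M, F (Nat.dist n n') ≤
      (M : ℝ) * ((H.card : ℝ) ^ 2 + 2 * ∑ m ∈ (Ioc 0 N).filter (fun m => q ∣ m),
        gridNorm N H m) := by
    refine (sum_le_card_nsmul _ _ ((H.card : ℝ) ^ 2 +
      2 * ∑ m ∈ (Ioc 0 N).filter (fun m => q ∣ m), gridNorm N H m) fun n hn => ?_).trans
      (le_of_eq (by rw [card_range, nsmul_eq_mul]))
    rw [mem_range] at hn
    rw [← sum_erase_add _ _ (mem_range.2 hn), add_comm, two_mul, Nat.dist_self,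
      ← sum_filter_add_sum_filter_not ((range M).erase n) (fun n' => n' < n)]
    refine add_le_add ?_ (add_le_add ?_ ?_)
    · rw [hF]
      simp [gridNorm_zero]
    · refine le_trans ?_ (le_of_eq (show ∑ m ∈ Ioc 0 N, F m = _ by rw [hF, sum_filter]))
      refine le_trans (le_of_eq ?_) (sum_le_sum_of_subset_of_nonneg
        (s := (((range M).erase n).filter fun n' => n' < n).image (Nat.dist n))
        (fun m hm => ?_) fun m _ _ => hF0 m)
      · rw [sum_image fun x hx y hy h => ?_]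
        simp only [mem_coe, mem_filter] at hx hy
        rw [Nat.dist_eq_sub_of_le_right hx.2.le, Nat.dist_eq_sub_of_le_right hy.2.le] at h
        omega
      · simp only [mem_image, mem_filter, mem_erase, mem_range] at hm
        obtain ⟨x, ⟨-, hx⟩, rfl⟩ := hm
        rw [Nat.dist_eq_sub_of_le_right hx.le, mem_Ioc]
        omega
    · refine le_trans ?_ (le_of_eq (show ∑ m ∈ Ioc 0 N, F m = _ by rw [hF, sum_filter]))
      refine le_trans (le_of_eq ?_) (sum_le_sum_of_subset_of_nonneg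
        (s := (((range M).erase n).filter fun n' => ¬ n' < n).image (Nat.dist n))
        (fun m hm => ?_) fun m _ _ => hF0 m)
      · rw [sum_image fun x hx y hy h => ?_]
        simp only [mem_coe, mem_filter, mem_erase] at hx hy
        rw [Nat.dist_eq_sub_of_le (not_lt.1 hx.2), Nat.dist_eq_sub_of_le (not_lt.1 hy.2)] at h
        omega
      · simp only [mem_image, mem_filter, mem_erase, mem_range] at hm
        obtain ⟨x, ⟨⟨hxn, hxM⟩, hx⟩, rfl⟩ := hm
        rw [Nat.dist_eq_sub_of_le (not_lt.1 hx), mem_Ioc]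
        omega
  have hM0 : (0 : ℝ) < M := Nat.cast_pos.2 hM
  simp only [fejer, ← sum_div]
  rw [key, div_le_iff₀ (by positivity)]
  refine (mul_le_mul_of_nonneg_left hdist (Nat.cast_nonneg q)).trans (le_of_eq ?_)
  field_simp

theorem inv_totient_le_sqrt {q : ℕ} (hq : 0 < q) : (q.totient : ℝ)⁻¹ ≤ 2 / √(q : ℝ) := by
  have hq0 : (0 : ℝ) < q := Nat.cast_pos.2 hq
  refine le_of_pow_le_pow_left₀ two_ne_zero (by positivity) ?_
  rw [inv_pow, ← one_div]
  refine (ThreePrimes.inv_totient_sq_le hq).trans ?_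
  rw [div_pow, Real.sq_sqrt hq0.le, show (2 : ℝ) ^ 2 = 4 by norm_num, div_eq_mul_inv (4 : ℝ),
    ← Real.rpow_neg_one]
  exact mul_le_mul_of_nonneg_left (Real.rpow_le_rpow_of_exponent_le (by exact_mod_cast hq)
    (by norm_num)) (by norm_num)

/-- The majorant. -/
def arcKernel (N U J : ℕ) (α : ℝ) : ℝ :=
  ∑ q ∈ Icc 1 U, (q.totient : ℝ)⁻¹ * ∑ j ∈ range (J + 1), (1 / 2) ^ j *
    (4 * ∑ a ∈ range q, fejer (N / 2 ^ (j + 4)) (α - (a : ℝ) / q))

theorem arcKernel_nonneg (N U J : ℕ) (α : ℝ) : 0 ≤ arcKernel N U J α :=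
  sum_nonneg fun q _ => mul_nonneg (by positivity) (sum_nonneg fun j _ =>
    mul_nonneg (by positivity) (mul_nonneg (by norm_num) (sum_nonneg fun a _ => fejer_nonneg _ _)))

/-- The kernel majorises the main term on an arc. -/
theorem le_arcKernel {N U J q r : ℕ} (hJ : 2 ^ (J + 4) ≤ N) (hU : U ≤ 2 ^ J) (hq : 0 < q)
    (hqU : q ≤ U) (hr : r < q) {α : ℝ} (hd : nearDist (α - (r : ℝ) / q) * N ≤ U) :
    (q.totient : ℝ)⁻¹ * (clip N (α - (r : ℝ) / q) / N) ≤ arcKernel N U J α := by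
  classical
  obtain ⟨d, hd'⟩ : ∃ d, d = nearDist (α - (r : ℝ) / q) := ⟨_, rfl⟩
  have hd0 : 0 ≤ d := hd' ▸ ThreePrimes.nearDist_nonneg _
  have hN0 : (0 : ℝ) < N := Nat.cast_pos.2 (lt_of_lt_of_le (by positivity) hJ)
  rw [← hd'] at hd
  have hex : ∃ j, d * N ≤ 2 ^ j :=
    ⟨J, hd.trans (by exact_mod_cast hU)⟩
  obtain ⟨j, hj⟩ : ∃ j, j = Nat.find hex := ⟨_, rfl⟩
  have hjspec : d * N ≤ 2 ^ j := hj ▸ Nat.find_spec hex
  have hjJ : j ≤ J := hj ▸ Nat.find_le (hd.trans (by exact_mod_cast hU))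
  refine le_trans ?_ (single_le_sum (f := fun q : ℕ => (q.totient : ℝ)⁻¹ * ∑ j ∈ range (J + 1),
    (1 / 2) ^ j * (4 * ∑ a ∈ range q, fejer (N / 2 ^ (j + 4)) (α - (a : ℝ) / q)))
    (fun i _ => mul_nonneg (by positivity) (sum_nonneg fun j _ => mul_nonneg (by positivity)
      (mul_nonneg (by norm_num) (sum_nonneg fun a _ => fejer_nonneg _ _))))
    (mem_Icc.2 ⟨hq, hqU⟩))
  refine mul_le_mul_of_nonneg_left ?_ (by positivity)
  refine le_trans ?_ (single_le_sum (f := fun j : ℕ => (1 / 2 : ℝ) ^ j *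
    (4 * ∑ a ∈ range q, fejer (N / 2 ^ (j + 4)) (α - (a : ℝ) / q)))
    (fun i _ => mul_nonneg (by positivity) (mul_nonneg (by norm_num)
      (sum_nonneg fun a _ => fejer_nonneg _ _))) (mem_range.2 (Nat.lt_succ_of_le hjJ)))
  have hfe : 1 / 4 ≤ ∑ a ∈ range q, fejer (N / 2 ^ (j + 4)) (α - (a : ℝ) / q) := by
    refine le_trans ?_ (single_le_sum (fun a _ => fejer_nonneg _ _) (mem_range.2 hr))
    refine quarter_le_fejer (Nat.div_pos ((Nat.pow_le_pow_right two_pos (by omega)).trans hJ)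
      (by positivity)) ?_
    rw [← hd']
    refine (mul_le_mul_of_nonneg_left Nat.cast_div_le hd0).trans ?_
    rw [← mul_div_assoc, div_le_iff₀ (by positivity)]
    refine hjspec.trans (le_of_eq ?_)
    push_cast
    ring
  refine le_trans ?_ (mul_le_mul_of_nonneg_left
    (show (1 : ℝ) ≤ 4 * ∑ a ∈ range q, fejer (N / 2 ^ (j + 4)) (α - (a : ℝ) / q) by linarith)
    (by positivity))
  rw [mul_one, div_le_iff₀ hN0]
  rcases Nat.eq_zero_or_pos j with h0 | h0
  · rw [h0, pow_zero, one_mul]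
    exact ThreePrimes.clip_le _ _
  · have h1 := Nat.find_min hex (show j - 1 < Nat.find hex by omega)
    rw [not_le] at h1
    have hdpos : 0 < d := (mul_pos_iff_of_pos_right hN0).1 (lt_trans (by positivity) h1)
    refine (ThreePrimes.clip_le_inv hdpos (le_of_eq hd')).trans ?_
    rw [div_le_iff₀ (by positivity)]
    have e : (2 : ℝ) ^ j = 2 * 2 ^ (j - 1) := by
      rw [← pow_succ']
      congr 1
      omega
    rw [e] at hjspec
    rw [one_div_pow, e, one_div, mul_assoc, inv_mul_eq_div, le_div_iff₀ (by positivity)]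
    linarith

/-- **The majorant of the exponential sum over the primes.** -/
theorem exists_twist_le (A : ℕ) : ∃ C : ℝ, 0 < C ∧ ∀ N U J : ℕ, 1 ≤ Real.log N →
    Real.log N ^ (2 * (A + 4)) ≤ N → 1 ≤ U → U ≤ 2 ^ J → 2 ^ (J + 4) ≤ N → ∀ α : ℝ,
      ‖twist α Λ N‖ ≤ N * (2 / √(U : ℝ) + C / Real.log N ^ A + arcKernel N U J α) := by
  obtain ⟨C₁, hC₁, hmin⟩ := ThreePrimes.exists_minor_le (A + 4)
  obtain ⟨C₂, hC₂, hmaj⟩ := ThreePrimes.exists_major_approx (2 * (A + 4)) A
  refine ⟨C₁ + C₂, by positivity, fun N U J hl hlN hU hUJ hJ α => ?_⟩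
  have hN2 : 2 ≤ N := le_trans (Nat.le_self_pow (by omega) 2) hJ
  have hN0 : (0 : ℝ) < N := Nat.cast_pos.2 (by omega)
  obtain ⟨l, hlr⟩ : ∃ l, l = Real.log N := ⟨_, rfl⟩
  have hl0 : 0 < l := by rw [hlr]; linarith
  have hK := arcKernel_nonneg N U J α
  have hU0 : 0 ≤ 2 / √(U : ℝ) := by positivity
  by_cases hout : ∀ z ∈ arcCentres ⌊Real.log N ^ (2 * (A + 4))⌋₊,
      Real.log N ^ (2 * (A + 4)) / N < nearDist (α - centre z)
  · refine (hmin N _ α hl hlN rfl hout).trans ?_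
    rw [← hlr, pow_add]
    refine le_trans (le_of_eq (b := (N : ℝ) * (C₁ / l ^ A)) (by field_simp)) ?_
    refine mul_le_mul_of_nonneg_left ?_ hN0.le
    have : 0 ≤ C₂ / l ^ A := by positivity
    rw [add_div]
    linarith
  push Not at hout
  obtain ⟨⟨q, r⟩, hz, hdist⟩ := hout
  obtain ⟨⟨hq, hqP⟩, hr, hcop⟩ := mem_arcCentres.1 hz
  simp only at hq hqP hr hcop
  have : NeZero q := ⟨by omega⟩
  obtain ⟨β, hβ⟩ : ∃ β, β = α - (r : ℝ) / q - (round (α - (r : ℝ) / q) : ℝ) := ⟨_, rfl⟩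
  have hβd : |β| = nearDist (α - (r : ℝ) / q) := by rw [nearDist, hβ]
  have e : twist α Λ N = twist (((r : ℤ) : ℝ) / q + β) Λ N := by
    rw [← twist_add_intCast (((r : ℤ) : ℝ) / q + β) (round (α - (r : ℝ) / q)), hβ, Int.cast_natCast]
    congr 1
    ring
  have hunit : IsUnit ((r : ℤ) : ZMod q) := by
    rw [Int.cast_natCast]
    exact (ZMod.isUnit_iff_coprime r q).2 hcop.symm
  have h := hmaj N q r β hN2 hunit ((Nat.cast_le.2 hqP).trans (Nat.floor_le (by positivity)))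
    (by rw [hβd]; exact (le_div_iff₀ hN0).1 hdist)
  rw [← e] at h
  obtain ⟨W, hW⟩ : ∃ W, W = clip N (α - (r : ℝ) / q) := ⟨_, rfl⟩
  have hgeom : ‖geomSum N β‖ ≤ W := by
    have h2 := ThreePrimes.norm_geom_le β 0 N
    rw [Nat.sub_zero] at h2
    refine h2.trans (le_of_eq ?_)
    have hn : nearDist β = nearDist (α - (r : ℝ) / q) := by
      rw [hβ, show α - (r : ℝ) / q - (round (α - (r : ℝ) / q) : ℝ) =
        α - (r : ℝ) / q + ((-round (α - (r : ℝ) / q) : ℤ) : ℝ) by push_cast; ring,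
        ThreePrimes.nearDist_add_intCast]
    rw [hW, clip, clip, hn]
  have hmain : ‖twist α Λ N‖ ≤ (q.totient : ℝ)⁻¹ * W + C₂ * (N / l ^ A) := by
    refine ((norm_le_norm_add_norm_sub' _ _).trans (add_le_add ?_ (hlr ▸ h)))
    rw [norm_mul, Complex.norm_real, Real.norm_eq_abs, abs_div, Nat.abs_cast, div_eq_mul_inv,
      mul_assoc]
    refine (mul_le_of_le_one_left (by positivity) (ThreePrimes.abs_moebiusR_le q)).trans ?_
    exact mul_le_mul_of_nonneg_left hgeom (by positivity)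
  refine hmain.trans ?_
  rw [← hlr]
  have hC : C₂ * (N / l ^ A) ≤ N * ((C₁ + C₂) / l ^ A) := by
    have : 0 ≤ (N : ℝ) * (C₁ / l ^ A) := by positivity
    have e : C₂ * (N / l ^ A) = N * (C₂ / l ^ A) := by ring
    rw [add_div, mul_add, e]
    linarith
  suffices hW' : (q.totient : ℝ)⁻¹ * W ≤ N * (2 / √(U : ℝ) + arcKernel N U J α) by
    rw [mul_add, mul_add] at *
    linarith
  by_cases hsm : q ≤ U ∧ nearDist (α - (r : ℝ) / q) * N ≤ U
  · have h1 := le_arcKernel hJ hUJ hq hsm.1 hr hsm.2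
    rw [← hW, ← mul_div_assoc, div_le_iff₀ hN0] at h1
    refine h1.trans ?_
    rw [mul_add, mul_comm (N : ℝ) (arcKernel N U J α)]
    exact le_add_of_nonneg_left (by positivity)
  · refine le_trans ?_ (mul_le_mul_of_nonneg_left (le_add_of_nonneg_right hK) hN0.le)
    have hU1 : (1 : ℝ) ≤ U := by exact_mod_cast hU
    rcases not_and_or.1 hsm with hs | hs
    · refine (mul_le_mul (inv_totient_le_sqrt hq) (hW ▸ ThreePrimes.clip_le _ _)
        (hW ▸ ThreePrimes.clip_nonneg hN0.le _) (by positivity)).trans ?_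
      rw [mul_comm]
      refine mul_le_mul_of_nonneg_left (div_le_div_of_nonneg_left two_pos.le (by positivity)
        (Real.sqrt_le_sqrt (Nat.cast_le.2 (not_le.1 hs).le))) hN0.le
    · rw [not_le, ← div_lt_iff₀ hN0] at hs
      have h1 := ThreePrimes.clip_le_inv (Z := (N : ℝ)) (show 0 < (U : ℝ) / N by positivity) hs.le
      rw [← hW] at h1
      refine (mul_le_of_le_one_left (hW ▸ ThreePrimes.clip_nonneg hN0.le _)
        (inv_le_one_of_one_le₀ (by exact_mod_cast Nat.totient_pos.2 hq))).trans (h1.trans ?_)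
      rw [mul_div_assoc', one_div, inv_div, mul_div_assoc',
        div_le_div_iff₀ (by positivity) (by positivity)]
      have h2 : √(U : ℝ) ≤ U := by
        rw [Real.sqrt_le_left (by linarith)]
        nlinarith
      nlinarith

end FA.PrimeRestriction
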