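import Fermat.Agent.PrimeRestriction.Main

/-!
# Sumsets of dense sets of primes

A set of primes `≤ N` of size `η N / log N` has at least `c η ^ (1 + ε) N` sums of two elements:
the restriction theorem at the exponent `2 + 2 ε` bounds its additive energy.
-/

set_option autoImplicit false

noncomputable section

namespace FA.PrimeRestriction

open Finset
open FA.ThreePrimes (eAdd)
open scoped Real

/-- The ordered representations as a sum of two elements of `A`. -/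
def pairReps (A : Finset ℕ) (s : ℕ) : ℕ := ((A ×ˢ A).filter fun x => x.1 + x.2 = s).card

/-- **The fourth moment is the energy.** -/
theorem sum_pow_four_eq {N : ℕ} (hN : 0 < N) {A : Finset ℕ} (hA : A ⊆ Icc 1 N) :
    ∑ h ∈ range (2 * N), ‖∑ n ∈ A, eAdd ((n : ℝ) * h / (2 * N : ℕ))‖ ^ 4 =
      (2 * N : ℕ) * ∑ s ∈ (A ×ˢ A).image (fun x => x.1 + x.2), (pairReps A s : ℝ) ^ 2 := by
  classical
  have hmaps : ∀ x ∈ A ×ˢ A, x.1 + x.2 ∈ Icc 1 (2 * N) := fun x hx => by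
    rw [mem_product] at hx
    have h1 := mem_Icc.1 (hA hx.1)
    have h2 := mem_Icc.1 (hA hx.2)
    rw [mem_Icc]
    omega
  have e : ∀ h : ℕ, (∑ n ∈ A, eAdd ((n : ℝ) * h / (2 * N : ℕ))) ^ 2 =
      ∑ s ∈ Icc 1 (2 * N), (pairReps A s : ℂ) * eAdd ((s : ℝ) * h / (2 * N : ℕ)) := by
    intro h
    rw [sq, sum_mul_sum, ← sum_product', ← sum_fiberwise_of_maps_to hmaps]
    refine sum_congr rfl fun s _ => ?_
    rw [pairReps, ← nsmul_eq_mul, ← sum_const]
    refine sum_congr rfl fun x hx => ?_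
    rw [← (mem_filter.1 hx).2, ← ThreePrimes.eAdd_add, Nat.cast_add, add_mul, add_div]
  have e2 : ∀ h : ℕ, ‖∑ n ∈ A, eAdd ((n : ℝ) * h / (2 * N : ℕ))‖ ^ 4 =
      ‖∑ s ∈ Icc 1 (2 * N), (pairReps A s : ℂ) * eAdd ((s : ℝ) * h / (2 * N : ℕ))‖ ^ 2 :=
    fun h => by rw [← e, norm_pow, ← pow_mul]
  simp only [e2]
  rw [sum_norm_sq_full (by omega)]
  refine congrArg _ ?_
  simp only [Complex.norm_natCast]
  refine (sum_subset (fun s hs => ?_) fun s _ hs' => ?_).symm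
  · obtain ⟨x, hx, rfl⟩ := mem_image.1 hs
    exact hmaps x hx
  · have : pairReps A s = 0 := by
      rw [pairReps, card_eq_zero, filter_eq_empty_iff]
      exact fun x hx hxs => hs' (mem_image.2 ⟨x, hx, hxs⟩)
    simp [this]

/-- The Cauchy–Schwarz inequality. -/
theorem card_pow_four_le (A : Finset ℕ) :
    (A.card : ℝ) ^ 4 ≤ ((A ×ˢ A).image fun x => x.1 + x.2).card *
      ∑ s ∈ (A ×ˢ A).image (fun x => x.1 + x.2), (pairReps A s : ℝ) ^ 2 := by
  classical
  refine le_trans (le_of_eq ?_) sq_sum_le_card_mul_sum_sq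
  have h : ∑ s ∈ (A ×ˢ A).image (fun x => x.1 + x.2), pairReps A s = A.card * A.card := by
    simp only [pairReps]
    rw [← card_eq_sum_card_fiberwise fun x hx => mem_image_of_mem _ hx, card_product]
  have h' : ∑ s ∈ (A ×ˢ A).image (fun x => x.1 + x.2), (pairReps A s : ℝ) =
      (A.card : ℝ) * A.card := by exact_mod_cast h
  rw [h']
  ring

/-- **The sumset of a dense set of primes.** -/
theorem exists_sumset_ge {ε : ℝ} (hε : 0 < ε) (hε1 : ε ≤ 1) : ∃ c : ℝ, 0 < c ∧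
    ∀ N : ℕ, 2 ≤ N → ∀ A : Finset ℕ, A ⊆ (Icc 1 N).filter Nat.Prime →
      c * N * ((A.card : ℝ) * Real.log N / N) ^ (1 + ε) ≤
        ((A ×ˢ A).image fun x => x.1 + x.2).card := by
  classical
  obtain ⟨q, hq⟩ : ∃ q : ℝ, q = 2 + 2 * ε := ⟨_, rfl⟩
  obtain ⟨C, hC, hgrid⟩ := exists_prime_grid_restriction (p := q) (by linarith)
  refine ⟨1 / (C * 2 ^ (1 + ε)), by positivity, fun N hN A hA => ?_⟩
  obtain ⟨S, hS⟩ : ∃ S : ℝ, S = (((A ×ˢ A).image fun x => x.1 + x.2).card : ℝ) := ⟨_, rfl⟩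
  rw [← hS]
  obtain ⟨m, hm⟩ : ∃ m : ℝ, m = A.card := ⟨_, rfl⟩
  rw [← hm]
  have hS0 : 0 ≤ S := hS ▸ Nat.cast_nonneg _
  rcases (hm ▸ Nat.cast_nonneg _ : (0 : ℝ) ≤ m).eq_or_lt with h | h
  · rw [← h, zero_mul, zero_div, Real.zero_rpow (by linarith), mul_zero]
    exact hS0
  have hA' : A ⊆ Icc 1 N := fun n hn => (mem_filter.1 (hA hn)).1
  obtain ⟨M, hM⟩ : ∃ M : ℝ, M = ((2 * N : ℕ) : ℝ) := ⟨_, rfl⟩
  have hN0 : (0 : ℝ) < N := Nat.cast_pos.2 (by omega)
  have hM2 : M = 2 * N := by rw [hM]; push_cast; ring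
  have hM0 : 0 < M := by linarith
  obtain ⟨l, hl⟩ : ∃ l, l = Real.log N := ⟨_, rfl⟩
  have hl0 : 0 < l := hl ▸ Real.log_pos (by exact_mod_cast hN)
  have hlM : l ≤ Real.log M := hl ▸ Real.log_le_log hN0 (by linarith)
  rw [← hl]
  obtain ⟨c, hc⟩ : ∃ c : ℕ → ℂ, c = fun n => if n ∈ A then 1 else 0 := ⟨_, rfl⟩
  obtain ⟨f, hf⟩ : ∃ f : ℕ → ℂ,
      f = fun h : ℕ => ∑ n ∈ A, eAdd ((n : ℝ) * h / (2 * N : ℕ)) := ⟨_, rfl⟩
  have hfc : ∀ h : ℕ,
      ∑ n ∈ Icc 1 (2 * N), c n * eAdd ((n : ℝ) * h / (2 * N : ℕ)) = f h := fun h => by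
    simp only [hc, hf, ite_mul, one_mul, zero_mul]
    rw [← sum_filter]
    refine sum_congr ?_ fun _ _ => rfl
    ext n
    simp only [mem_filter]
    refine ⟨fun h => h.2, fun h => ⟨?_, h⟩⟩
    have := mem_Icc.1 (hA' h)
    rw [mem_Icc]
    omega
  have hen : energy (2 * N) c = m := by
    have e : ∀ n, ‖c n‖ ^ 2 = if n ∈ A then (1 : ℝ) else 0 := fun n => by
      rw [hc]
      by_cases h : n ∈ A <;> simp [h]
    simp only [energy, e]
    rw [← sum_filter, sum_const, nsmul_eq_mul, mul_one, hm]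
    congr 2
    ext n
    simp only [mem_filter]
    refine ⟨fun h => h.2, fun h => ⟨?_, h⟩⟩
    have := mem_Icc.1 (hA' h)
    rw [mem_Icc]
    omega
  have hq' := hgrid (2 * N) (by omega) c fun n hn => by
    rw [hc]
    exact if_neg fun h => hn (mem_filter.1 (hA h)).2
  simp only [hfc, hen] at hq'
  simp only [← hM] at hq'
  have h4 : ∑ h ∈ range (2 * N), ‖f h‖ ^ 4 ≤ m ^ (4 - q) * (C * (M / l * m) ^ (q / 2)) := by
    refine (sum_le_sum (g := fun h => m ^ (4 - q) * ‖f h‖ ^ q) fun x _ => ?_).trans ?_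
    · have h1 : ‖f x‖ ≤ m := by
        rw [hf, hm]
        refine (norm_sum_le _ _).trans (le_of_eq ?_)
        simp [ThreePrimes.norm_eAdd]
      rw [← Real.rpow_natCast, show ((4 : ℕ) : ℝ) = (4 - q) + q by push_cast; ring,
        Real.rpow_add' (norm_nonneg _) (by linarith)]
      exact mul_le_mul_of_nonneg_right (Real.rpow_le_rpow (norm_nonneg _) h1 (by linarith))
        (Real.rpow_nonneg (norm_nonneg _) _)
    · rw [← mul_sum]
      refine mul_le_mul_of_nonneg_left (hq'.trans ?_) (Real.rpow_nonneg h.le _)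
      refine mul_le_mul_of_nonneg_left (Real.rpow_le_rpow (mul_nonneg (div_nonneg hM0.le
        (hl0.le.trans hlM)) h.le) ?_ (by linarith)) hC.le
      exact mul_le_mul_of_nonneg_right (div_le_div_of_nonneg_left hM0.le hl0 hlM) h.le
  have hkey : m ^ 4 * M ≤ S * (m ^ (4 - q) * (C * (M / l * m) ^ (q / 2))) := by
    have h1 := card_pow_four_le A
    rw [← hm, ← hS] at h1
    refine (mul_le_mul_of_nonneg_right h1 hM0.le).trans ?_
    rw [mul_assoc]
    refine mul_le_mul_of_nonneg_left (le_trans (le_of_eq ?_) h4) hS0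
    rw [hf, sum_pow_four_eq (by omega) hA', hM, mul_comm]
  have hq2 : q / 2 = 1 + ε := by linarith
  obtain ⟨x, hx⟩ : ∃ x, x = m * l / M := ⟨_, rfl⟩
  have hx0 : 0 < x := hx ▸ by positivity
  have hmain : M * x ^ (1 + ε) ≤ S * C := by
    refine le_of_mul_le_mul_left ?_ (show 0 < m ^ (4 - q) * (M / l * m) ^ (q / 2) by positivity)
    calc m ^ (4 - q) * (M / l * m) ^ (q / 2) * (M * x ^ (1 + ε))
        = m ^ (4 - q) * ((M / l * m) ^ (q / 2) * x ^ (q / 2)) * M := by rw [hq2]; ring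
      _ = m ^ (4 - q) * m ^ q * M := by
          rw [← Real.mul_rpow (by positivity) hx0.le, hx,
            show M / l * m * (m * l / M) = m ^ 2 by field_simp,
            ← Real.rpow_natCast m 2, ← Real.rpow_mul h.le]
          congr 3
          push_cast
          ring
      _ = m ^ 4 * M := by
          rw [← Real.rpow_add h, sub_add_cancel, show (4 : ℝ) = ((4 : ℕ) : ℝ) by norm_num,
            Real.rpow_natCast]
      _ ≤ _ := hkey.trans (le_of_eq (by ring))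
  rw [show m * l / N = 2 * x by rw [hx, hM2]; field_simp,
    Real.mul_rpow two_pos.le hx0.le, div_mul_eq_mul_div, div_mul_eq_mul_div,
    div_le_iff₀ (by positivity)]
  calc 1 * (N : ℝ) * (2 ^ (1 + ε) * x ^ (1 + ε))
      ≤ M * x ^ (1 + ε) * 2 ^ (1 + ε) := by
        rw [hM2]
        have : 0 ≤ (N : ℝ) * (2 ^ (1 + ε) * x ^ (1 + ε)) := by positivity
        linarith
    _ ≤ S * C * 2 ^ (1 + ε) := mul_le_mul_of_nonneg_right hmain (by positivity)
    _ = _ := by ring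

/-- The same for every `ε > 0`. -/
theorem exists_sumset_ge_all {ε : ℝ} (hε : 0 < ε) : ∃ c : ℝ, 0 < c ∧
    ∀ N : ℕ, 2 ≤ N → ∀ A : Finset ℕ, A ⊆ (Icc 1 N).filter Nat.Prime →
      c * N * ((A.card : ℝ) * Real.log N / N) ^ (1 + ε) ≤
        ((A ×ˢ A).image fun x => x.1 + x.2).card := by
  rcases le_or_gt ε 1 with h1 | h1
  · exact exists_sumset_ge hε h1
  obtain ⟨c, hc, h⟩ := exists_sumset_ge one_pos le_rfl
  refine ⟨c / 14 ^ (ε - 1), by positivity, fun N hN A hA => le_trans ?_ (h N hN A hA)⟩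
  obtain ⟨x, hx⟩ : ∃ x, x = (A.card : ℝ) * Real.log N / N := ⟨_, rfl⟩
  rw [← hx]
  have hx0 : 0 ≤ x := hx ▸ div_nonneg (mul_nonneg (Nat.cast_nonneg _)
    (Real.log_natCast_nonneg _)) (Nat.cast_nonneg _)
  have hx14 : x ≤ 14 := by
    rw [hx, div_le_iff₀ (Nat.cast_pos.2 (by omega))]
    exact (mul_le_mul_of_nonneg_right (Nat.cast_le.2 (card_le_card hA))
      (Real.log_natCast_nonneg _)).trans (card_primes_mul_log_le N)
  have h2 : x ^ (1 + ε) ≤ 14 ^ (ε - 1) * x ^ (1 + 1 : ℝ) := by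
    rw [show (1 : ℝ) + ε = (ε - 1) + (1 + 1) by ring, Real.rpow_add' hx0 (by linarith)]
    exact mul_le_mul_of_nonneg_right (Real.rpow_le_rpow hx0 hx14 (by linarith))
      (Real.rpow_nonneg hx0 _)
  refine (mul_le_mul_of_nonneg_left h2 (by positivity)).trans (le_of_eq ?_)
  field_simp

end FA.PrimeRestriction
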